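import Mathlib

/-!
# Bol's identity (work package B of the S22 project)

For `g ∈ GL₂(ℝ)` with positive determinant and a holomorphic `F : ℍ → ℂ`, the `(m+1)`-st
derivative intertwines the weight `-m` and the weight `m+2` slash actions:
`D^{m+1} (F ∣[-m] g) = (D^{m+1} F) ∣[m+2] g` (raw form, without the determinant normalisation,
which cancels).

The proof is by induction on `m`, applied to `H_m(z) = (cz+d)^m F(gz)`, using
`H_{m+1} = (cz+d) H_m` and the Leibniz rule for multiplication by an affine function.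
-/

open UpperHalfPlane Complex
open scoped Manifold ModularForm MatrixGroups Topology

namespace Fermat.Agent.S22

namespace BolAux

lemma analyticAt_iteratedDeriv {u : ℂ → ℂ} {w : ℂ} (hu : AnalyticAt ℂ u w) (n : ℕ) :
    AnalyticAt ℂ (iteratedDeriv n u) w := by
  rw [iteratedDeriv_eq_iterate]; exact hu.iterated_deriv n

lemma hasDerivAt_iteratedDeriv {u : ℂ → ℂ} {w : ℂ} (hu : AnalyticAt ℂ u w) (n : ℕ) :
    HasDerivAt (iteratedDeriv n u) (iteratedDeriv (n + 1) u w) w := by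
  have := (analyticAt_iteratedDeriv hu n).differentiableAt.hasDerivAt
  rwa [← iteratedDeriv_succ] at this

/-- Leibniz rule for multiplication by an affine function, on an open set. -/
lemma iteratedDeriv_affine_mul (c d : ℂ) {u : ℂ → ℂ} {s : Set ℂ} (hs : IsOpen s)
    (hu : ∀ w ∈ s, AnalyticAt ℂ u w) (n : ℕ) :
    ∀ w ∈ s, iteratedDeriv (n + 1) (fun z => (c * z + d) * u z) w =
      (c * w + d) * iteratedDeriv (n + 1) u w + (n + 1) * c * iteratedDeriv n u w := by
  induction n with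
  | zero =>
    intro w hw
    simp only [zero_add, iteratedDeriv_one, iteratedDeriv_zero, Nat.cast_zero]
    have h1 : HasDerivAt (fun z : ℂ => c * z + d) c w := by
      simpa using ((hasDerivAt_id w).const_mul c).add_const d
    have h2 := (hu w hw).differentiableAt.hasDerivAt
    have key : HasDerivAt (fun z => (c * z + d) * u z) (c * u w + (c * w + d) * deriv u w) w :=
      h1.fun_mul h2
    rw [key.deriv]; ring
  | succ n ih =>
    intro w hw
    rw [iteratedDeriv_succ]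
    have heq : iteratedDeriv (n + 1) (fun z => (c * z + d) * u z) =ᶠ[𝓝 w]
        fun w => (c * w + d) * iteratedDeriv (n + 1) u w + (n + 1) * c * iteratedDeriv n u w := by
      filter_upwards [hs.mem_nhds hw] with z hz using ih z hz
    rw [heq.deriv_eq]
    have h1 : HasDerivAt (fun z : ℂ => c * z + d) c w := by
      simpa using ((hasDerivAt_id w).const_mul c).add_const d
    have h2 := hasDerivAt_iteratedDeriv (hu w hw) (n + 1)
    have h3 := hasDerivAt_iteratedDeriv (hu w hw) n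
    have key : HasDerivAt
        (fun w => (c * w + d) * iteratedDeriv (n + 1) u w + (n + 1) * c * iteratedDeriv n u w)
        ((c * iteratedDeriv (n + 1) u w + (c * w + d) * iteratedDeriv (n + 1 + 1) u w) +
          ((n + 1 : ℂ) * c) * iteratedDeriv (n + 1) u w) w :=
      (h1.fun_mul h2).fun_add (h3.const_mul ((n + 1 : ℂ) * c))
    rw [key.deriv]
    push_cast; ring

variable {g : GL (Fin 2) ℝ}

lemma hasDerivAt_mob (hg : 0 < g.val.det) (τ : ℍ) :
    HasDerivAt (fun z : ℂ ↦ ((g • ofComplex z : ℍ) : ℂ)) ((g.val.det : ℂ) / denom g τ ^ 2) τ :=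
  (hasStrictDerivAt_smul hg τ).hasDerivAt

lemma analyticAt_mob (hg : 0 < g.val.det) {w : ℂ} (hw : w ∈ upperHalfPlaneSet) :
    AnalyticAt ℂ (fun z : ℂ ↦ ((g • ofComplex z : ℍ) : ℂ)) w := by
  have hd : DifferentiableOn ℂ (fun z : ℂ ↦ ((g • ofComplex z : ℍ) : ℂ)) upperHalfPlaneSet := by
    intro z hz
    exact (hasDerivAt_mob hg ⟨z, hz⟩).differentiableAt.differentiableWithinAt
  exact hd.analyticAt (isOpen_upperHalfPlaneSet.mem_nhds hw)

lemma mob_mem (w : ℂ) : ((g • ofComplex w : ℍ) : ℂ) ∈ upperHalfPlaneSet :=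
  (g • ofComplex w).im_pos

lemma hasDerivAt_denom (τ : ℂ) : HasDerivAt (fun z : ℂ => denom g z) (g 1 0 : ℂ) τ := by
  simpa [denom] using ((hasDerivAt_id τ).const_mul (g 1 0 : ℂ)).add_const (g 1 1 : ℂ)

lemma analyticAt_denom_pow (m : ℕ) (w : ℂ) : AnalyticAt ℂ (fun z : ℂ => denom g z ^ m) w := by
  have : (fun z : ℂ => denom g z ^ m) = fun z : ℂ => ((g 1 0 : ℂ) * z + (g 1 1 : ℂ)) ^ m := by
    funext z; simp [denom]
  rw [this]
  fun_prop

/-- the function `(cz+d)^m Φ(gz)` -/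
lemma analyticAt_aux (hg : 0 < g.val.det) {Φ : ℂ → ℂ}
    (hΦ : ∀ w ∈ upperHalfPlaneSet, AnalyticAt ℂ Φ w) (m : ℕ) {w : ℂ}
    (hw : w ∈ upperHalfPlaneSet) :
    AnalyticAt ℂ (fun z : ℂ => denom g z ^ m * Φ ((g • ofComplex z : ℍ) : ℂ)) w := by
  refine (analyticAt_denom_pow m w).mul ?_
  exact AnalyticAt.comp (g := Φ) (f := fun z : ℂ ↦ ((g • ofComplex z : ℍ) : ℂ))
    (hΦ _ (mob_mem w)) (analyticAt_mob hg hw)

theorem bol_aux (hg : 0 < g.val.det) {Φ : ℂ → ℂ}
    (hΦ : ∀ w ∈ upperHalfPlaneSet, AnalyticAt ℂ Φ w) (m : ℕ) :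
    ∀ τ : ℍ, iteratedDeriv (m + 1)
        (fun z : ℂ => denom g z ^ m * Φ ((g • ofComplex z : ℍ) : ℂ)) τ =
      (g.val.det : ℂ) ^ (m + 1) * (denom g τ ^ (m + 2))⁻¹ *
        iteratedDeriv (m + 1) Φ ((g • τ : ℍ) : ℂ) := by
  induction m with
  | zero =>
    intro τ
    simp only [zero_add, pow_zero, one_mul, iteratedDeriv_one, pow_one]
    have h1 := hasDerivAt_mob hg τ
    have h2 : HasDerivAt Φ (deriv Φ ((g • τ : ℍ) : ℂ)) ((g • ofComplex (τ : ℂ) : ℍ) : ℂ) := by
      rw [ofComplex_apply]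
      exact (hΦ _ (g • τ).im_pos).differentiableAt.hasDerivAt
    have key := h2.comp (τ : ℂ) h1
    rw [show (fun z : ℂ => Φ ((g • ofComplex z : ℍ) : ℂ)) =
      Φ ∘ (fun z : ℂ ↦ ((g • ofComplex z : ℍ) : ℂ)) from rfl, key.deriv]
    have hD := denom_ne_zero g τ
    field_simp
  | succ m ih =>
    intro τ
    have hD := denom_ne_zero g τ
    set c : ℂ := (g 1 0 : ℂ) with hc
    set d : ℂ := (g 1 1 : ℂ) with hd
    set H : ℂ → ℂ := fun z : ℂ => denom g z ^ m * Φ ((g • ofComplex z : ℍ) : ℂ) with hH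
    have hfun : (fun z : ℂ => denom g z ^ (m + 1) * Φ ((g • ofComplex z : ℍ) : ℂ)) =
        fun z => (c * z + d) * H z := by
      funext z
      simp only [hH, pow_succ, denom, hc, hd]
      ring
    rw [hfun, iteratedDeriv_affine_mul c d isOpen_upperHalfPlaneSet
      (fun w hw => analyticAt_aux hg hΦ m hw) (m + 1) τ τ.im_pos]
    -- rewrite the two iterated derivatives of `H`
    set Ψ : ℂ → ℂ := iteratedDeriv (m + 1) Φ with hΨ
    set R : ℂ → ℂ := fun z : ℂ => (g.val.det : ℂ) ^ (m + 1) * (denom g z ^ (m + 2))⁻¹ *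
        Ψ ((g • ofComplex z : ℍ) : ℂ) with hR
    have heq : iteratedDeriv (m + 1) H =ᶠ[𝓝 (τ : ℂ)] R := by
      filter_upwards [isOpen_upperHalfPlaneSet.mem_nhds τ.im_pos] with z hz
      have := ih ⟨z, hz⟩
      simp only [hR]
      rw [ofComplex_apply_of_im_pos hz]
      exact this
    have h1 : iteratedDeriv (m + 1) H τ = R τ := heq.eq_of_nhds
    have h2 : iteratedDeriv (m + 1 + 1) H τ = deriv R τ := by
      rw [iteratedDeriv_succ, heq.deriv_eq]
    rw [h1, h2]
    -- derivative of R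
    have hΨ' : HasDerivAt Ψ (iteratedDeriv (m + 1 + 1) Φ ((g • τ : ℍ) : ℂ))
        ((g • ofComplex (τ : ℂ) : ℍ) : ℂ) := by
      rw [ofComplex_apply]
      exact hasDerivAt_iteratedDeriv (hΦ _ (g • τ).im_pos) (m + 1)
    have hcomp := hΨ'.comp (τ : ℂ) (hasDerivAt_mob hg τ)
    have hden : HasDerivAt (fun z : ℂ => (denom g z ^ (m + 2))⁻¹)
        (-(((m + 2 : ℕ) : ℂ) * denom g τ ^ (m + 1) * c) / (denom g τ ^ (m + 2)) ^ 2) τ := by
      have := ((hasDerivAt_denom (g := g) (τ : ℂ)).fun_pow (m + 2)).fun_inv (pow_ne_zero _ hD)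
      simpa using this
    have hRd : HasDerivAt R
        ((g.val.det : ℂ) ^ (m + 1) *
          (-(((m + 2 : ℕ) : ℂ) * denom g τ ^ (m + 1) * c) / (denom g τ ^ (m + 2)) ^ 2 *
              Ψ ((g • ofComplex (τ : ℂ) : ℍ) : ℂ) +
            (denom g τ ^ (m + 2))⁻¹ *
              (iteratedDeriv (m + 1 + 1) Φ ((g • τ : ℍ) : ℂ) *
                ((g.val.det : ℂ) / denom g τ ^ 2)))) τ := by
      have := ((hden.fun_mul hcomp).const_mul ((g.val.det : ℂ) ^ (m + 1)))
      simp only [Function.comp_def] at this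
      simp only [hR, mul_assoc] at this ⊢
      exact this
    rw [hRd.deriv]
    simp only [hR, ofComplex_apply]
    have hcd : c * (τ : ℂ) + d = denom g τ := by simp [denom, hc, hd]
    rw [hcd]
    push_cast
    field_simp
    ring

end BolAux

open BolAux in
/-- **Bol's identity**: the `(m+1)`-st derivative intertwines the weight `-m` and weight `m+2`
slash actions. Raw form. -/
theorem bol (m : ℕ) {F : ℍ → ℂ} (hF : MDiff F) (g : GL (Fin 2) ℝ) (hg : 0 < g.det.val) (τ : ℍ) :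
    iteratedDeriv (m + 1) ((F ∣[-(m : ℤ)] g) ∘ ofComplex) (τ : ℂ) =
      denom g τ ^ (-((m : ℤ) + 2)) * iteratedDeriv (m + 1) (F ∘ ofComplex) ((g • τ : ℍ) : ℂ) := by
  have hdet : g.det.val = g.val.det := Matrix.GeneralLinearGroup.val_det_apply g
  have hg' : 0 < g.val.det := hdet ▸ hg
  have hdetℂ : (g.val.det : ℂ) ≠ 0 := Complex.ofReal_ne_zero.mpr hg'.ne'
  have hσ (x) : σ g x = x := by grind [σ, ContinuousAlgEquiv.refl_apply]
  have hD := denom_ne_zero g τ
  have hΦ : ∀ w ∈ upperHalfPlaneSet, AnalyticAt ℂ (F ∘ ofComplex) w := fun w hw =>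
    (UpperHalfPlane.mdifferentiable_iff.mp hF).analyticAt (isOpen_upperHalfPlaneSet.mem_nhds hw)
  have heq : ((F ∣[-(m : ℤ)] g) ∘ ofComplex) =ᶠ[𝓝 (τ : ℂ)] fun w : ℂ =>
      ((g.val.det : ℂ) ^ (m + 1))⁻¹ *
        (denom g w ^ m * (F ∘ ofComplex) ((g • ofComplex w : ℍ) : ℂ)) := by
    filter_upwards [isOpen_upperHalfPlaneSet.mem_nhds τ.im_pos] with w hw
    simp only [Function.comp_apply, ModularForm.slash_apply, hσ, hdet, abs_of_pos hg',
      ofComplex_apply, ofComplex_apply_of_im_pos hw, neg_neg, zpow_natCast]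
    rw [show -(m : ℤ) - 1 = -((m + 1 : ℕ) : ℤ) by push_cast; ring, zpow_neg, zpow_natCast]
    ring
  rw [heq.iteratedDeriv_eq, iteratedDeriv_const_mul_field, bol_aux hg' hΦ m τ]
  rw [show -((m : ℤ) + 2) = -((m + 2 : ℕ) : ℤ) by push_cast; ring, zpow_neg, zpow_natCast]
  field_simp

end Fermat.Agent.S22
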