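import Mathlib

/-!
# Polynomials on the upper half plane and the action of integral matrices
(work package C of the S22 project)
-/

open UpperHalfPlane Complex Polynomial
open scoped Manifold

namespace Fermat.Agent.S22

/-- a polynomial of degree `< n` is the sum of its first `n` monomials -/
theorem eq_sum_range_of_degree_lt {q : ℂ[X]} {n : ℕ} (hq : q.degree < n) :
    q = ∑ j ∈ Finset.range n, C (q.coeff j) * X ^ j := by
  ext i
  rw [Polynomial.finsetSum_coeff]
  simp only [coeff_C_mul_X_pow]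
  rw [Finset.sum_ite_eq]
  split_ifs with hi
  · rfl
  · rw [Finset.mem_range, not_lt] at hi
    exact coeff_eq_zero_of_degree_lt (lt_of_lt_of_le hq (by exact_mod_cast hi))

/-- every complex polynomial of degree `< n` has an antiderivative of degree `< n + 1` -/
theorem exists_derivative_eq {q : ℂ[X]} {n : ℕ} (hq : q.degree < n) :
    ∃ Q : ℂ[X], derivative Q = q ∧ Q.degree < (n + 1 : ℕ) := by
  refine ⟨∑ j ∈ Finset.range n, C (q.coeff j / ((j : ℂ) + 1)) * X ^ (j + 1), ?_, ?_⟩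
  · conv_rhs => rw [eq_sum_range_of_degree_lt hq]
    rw [derivative_sum]
    refine Finset.sum_congr rfl fun j _ => ?_
    rw [derivative_C_mul_X_pow]
    have : ((j : ℂ) + 1) ≠ 0 := by exact_mod_cast Nat.succ_ne_zero j
    congr 2
    push_cast
    field_simp
  · refine lt_of_le_of_lt (degree_le_of_natDegree_le (n := n) ?_) (by exact_mod_cast Nat.lt_succ_self n)
    refine natDegree_sum_le_of_forall_le _ _ fun j hj => ?_
    exact (natDegree_C_mul_X_pow_le _ _).trans (Nat.succ_le_of_lt (Finset.mem_range.mp hj))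

theorem exists_polynomial_of_iteratedDeriv_eq_zero_aux (n : ℕ) :
    ∀ G : ℂ → ℂ, DifferentiableOn ℂ G {z : ℂ | 0 < z.im} →
      (∀ z ∈ {z : ℂ | 0 < z.im}, iteratedDeriv n G z = 0) →
      ∃ p : ℂ[X], p.degree < n ∧ ∀ z ∈ {z : ℂ | 0 < z.im}, G z = p.eval z := by
  induction n with
  | zero =>
    intro G _ h
    refine ⟨0, ?_, fun z hz => ?_⟩
    · simp
    · simpa using h z hz
  | succ n ih =>
    intro G hG h
    have hU : IsOpen {z : ℂ | 0 < z.im} := isOpen_upperHalfPlaneSet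
    obtain ⟨q, hq, hqe⟩ := ih (deriv G) (hG.deriv hU) (fun z hz => by
      have := h z hz
      rwa [iteratedDeriv_succ'] at this)
    obtain ⟨Q, hQd, hQdeg⟩ := exists_derivative_eq hq
    have hconv : Convex ℝ {z : ℂ | 0 < z.im} := convex_halfSpace_im_gt 0
    obtain ⟨a, ha⟩ := hU.exists_eq_add_of_deriv_eq hconv.isPreconnected hG
      (Q.differentiable.differentiableOn) (fun z hz => by
        rw [hqe z hz, Polynomial.deriv, hQd])
    refine ⟨Q + C a, ?_, fun z hz => ?_⟩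
    · refine lt_of_le_of_lt (degree_add_le _ _) (max_lt hQdeg ?_)
      exact lt_of_le_of_lt degree_C_le (by exact_mod_cast Nat.succ_pos n)
    · rw [ha hz]; simp

/-- a holomorphic function on the upper half plane whose `n`-th derivative vanishes is a polynomial
of degree `< n` -/
theorem exists_polynomial_of_iteratedDeriv_eq_zero (n : ℕ) {F : ℍ → ℂ} (hF : MDiff F)
    (h : ∀ τ : ℍ, iteratedDeriv n (F ∘ ofComplex) (τ : ℂ) = 0) :
    ∃ p : ℂ[X], p.degree < n ∧ ∀ τ : ℍ, F τ = p.eval (τ : ℂ) := by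
  obtain ⟨p, hp, hpe⟩ := exists_polynomial_of_iteratedDeriv_eq_zero_aux n (F ∘ ofComplex)
    (UpperHalfPlane.mdifferentiable_iff.mp hF) (fun z hz => h ⟨z, hz⟩)
  refine ⟨p, hp, fun τ => ?_⟩
  have := hpe (τ : ℂ) τ.im_pos
  simpa [Function.comp_apply, ofComplex_apply] using this

/-- two polynomials which agree on the upper half plane are equal -/
theorem polynomial_eq_of_eval_eq {p q : ℂ[X]} (h : ∀ τ : ℍ, p.eval (τ : ℂ) = q.eval (τ : ℂ)) :
    p = q := by
  refine Polynomial.eq_of_infinite_eval_eq p q ?_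
  refine Set.infinite_of_injective_forall_mem (f := fun n : ℕ => (n : ℂ) + Complex.I) ?_ ?_
  · intro a b hab
    have : (a : ℂ) = b := add_right_cancel hab
    exact_mod_cast this
  · intro n
    have hpos : 0 < ((n : ℂ) + Complex.I).im := by simp
    exact h ⟨(n : ℂ) + Complex.I, hpos⟩

/-- a polynomial which tends to zero at `i∞` is zero -/
theorem polynomial_eq_zero_of_isZeroAtImInfty {p : ℂ[X]}
    (h : IsZeroAtImInfty (fun τ : ℍ => p.eval (τ : ℂ))) : p = 0 := by
  have hnorm : Filter.Tendsto (fun τ : ℍ => ‖(τ : ℂ)‖) atImInfty Filter.atTop := by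
    refine Filter.tendsto_atTop_mono (fun τ => ?_) (Filter.tendsto_comap (f := UpperHalfPlane.im))
    exact (le_abs_self _).trans (Complex.abs_im_le_norm _)
  by_contra hp0
  by_cases hd : 0 < p.degree
  · have h1 := p.tendsto_norm_atTop hd hnorm
    have h2 : Filter.Tendsto (fun τ : ℍ => ‖p.eval (τ : ℂ)‖) atImInfty (nhds 0) := by
      simpa using (h : Filter.Tendsto _ _ _).norm
    exact not_tendsto_atTop_of_tendsto_nhds h2 h1
  · rw [not_lt] at hd
    rw [eq_C_of_degree_le_zero hd] at h hp0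
    have h2 : Filter.Tendsto (fun _ : ℍ => p.coeff 0) atImInfty (nhds 0) := by
      have h3 : Filter.Tendsto (fun τ : ℍ => eval (τ : ℂ) (C (p.coeff 0))) atImInfty (nhds 0) := h
      simp only [eval_C] at h3
      exact h3
    have := tendsto_nhds_unique tendsto_const_nhds h2
    exact hp0 (by rw [this, C_0])

/-- a polynomial which is periodic on the upper half plane is constant -/
theorem polynomial_eq_C_of_periodic {p : ℂ[X]} {h : ℝ} (hh : h ≠ 0)
    (hp : ∀ τ : ℍ, p.eval ((τ : ℂ) + h) = p.eval (τ : ℂ)) : p = C (p.coeff 0) := by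
  have hcomp : p.comp (X + C (h : ℂ)) = p := by
    refine polynomial_eq_of_eval_eq fun τ => ?_
    rw [eval_comp]
    simpa using hp τ
  have hshift : ∀ z : ℂ, p.eval (z + h) = p.eval z := by
    intro z
    conv_rhs => rw [← hcomp, eval_comp]
    simp
  have hmul : ∀ n : ℕ, p.eval ((n : ℂ) * h) = p.eval 0 := by
    intro n
    induction n with
    | zero => simp
    | succ n ih =>
      rw [← ih, ← hshift ((n : ℂ) * h)]
      congr 1
      push_cast
      ring
  refine Polynomial.eq_of_infinite_eval_eq p (C (p.coeff 0)) ?_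
  refine Set.infinite_of_injective_forall_mem (f := fun n : ℕ => (n : ℂ) * h) ?_ ?_
  · intro a b hab
    have hh' : (h : ℂ) ≠ 0 := by exact_mod_cast hh
    have : (a : ℂ) = b := mul_right_cancel₀ hh' hab
    exact_mod_cast this
  · intro n
    show p.eval ((n : ℂ) * h) = (C (p.coeff 0)).eval ((n : ℂ) * h)
    rw [eval_C, hmul n, coeff_zero_eq_eval_zero]

/-- the weight `-m` action of an integral matrix on polynomials of degree `≤ m`:
`(p ∣ A)(X) = ∑ j ≤ m, p_j (aX+b)^j (cX+d)^(m-j)`. -/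
noncomputable def polyAct (m : ℕ) (A : Matrix (Fin 2) (Fin 2) ℤ) (p : ℂ[X]) : ℂ[X] :=
  ∑ j ∈ Finset.range (m + 1), C (p.coeff j) * (C (A 0 0 : ℂ) * X + C (A 0 1 : ℂ)) ^ j *
    (C (A 1 0 : ℂ) * X + C (A 1 1 : ℂ)) ^ (m - j)

theorem polyAct_degree_lt (m : ℕ) (A : Matrix (Fin 2) (Fin 2) ℤ) (p : ℂ[X]) :
    (polyAct m A p).degree < (m + 1 : ℕ) := by
  refine lt_of_le_of_lt (degree_le_of_natDegree_le (n := m) ?_)
    (by exact_mod_cast Nat.lt_succ_self m)
  refine natDegree_sum_le_of_forall_le _ _ fun j hj => ?_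
  have hj' : j ≤ m := Nat.le_of_lt_succ (Finset.mem_range.mp hj)
  have h1 : ((C (A 0 0 : ℂ) * X + C (A 0 1 : ℂ)) ^ j).natDegree ≤ j :=
    (natDegree_pow_le_of_le j (natDegree_linear_le)).trans (by simp)
  have h2 : ((C (A 1 0 : ℂ) * X + C (A 1 1 : ℂ)) ^ (m - j)).natDegree ≤ m - j :=
    (natDegree_pow_le_of_le (m - j) (natDegree_linear_le)).trans (by simp)
  calc (C (p.coeff j) * (C (A 0 0 : ℂ) * X + C (A 0 1 : ℂ)) ^ j *
      (C (A 1 0 : ℂ) * X + C (A 1 1 : ℂ)) ^ (m - j)).natDegree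
      ≤ (C (p.coeff j) * (C (A 0 0 : ℂ) * X + C (A 0 1 : ℂ)) ^ j).natDegree +
        ((C (A 1 0 : ℂ) * X + C (A 1 1 : ℂ)) ^ (m - j)).natDegree := natDegree_mul_le
    _ ≤ j + (m - j) := by
        refine add_le_add ((natDegree_C_mul_le _ _).trans h1) h2
    _ = m := by omega

theorem polyAct_add (m : ℕ) (A : Matrix (Fin 2) (Fin 2) ℤ) (p q : ℂ[X]) :
    polyAct m A (p + q) = polyAct m A p + polyAct m A q := by
  unfold polyAct
  rw [← Finset.sum_add_distrib]
  refine Finset.sum_congr rfl fun j _ => ?_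
  rw [coeff_add, C_add]
  ring

theorem polyAct_smul (m : ℕ) (A : Matrix (Fin 2) (Fin 2) ℤ) (c : ℂ) (p : ℂ[X]) :
    polyAct m A (c • p) = c • polyAct m A p := by
  unfold polyAct
  rw [Finset.smul_sum]
  refine Finset.sum_congr rfl fun j _ => ?_
  rw [coeff_smul, smul_eq_mul, C_mul, smul_eq_C_mul]
  ring

theorem polyAct_eval (m : ℕ) (A : Matrix (Fin 2) (Fin 2) ℤ) {p : ℂ[X]} (hp : p.degree < (m + 1 : ℕ))
    (z : ℂ) (hz : (A 1 0 : ℂ) * z + (A 1 1 : ℂ) ≠ 0) :
    (polyAct m A p).eval z = ((A 1 0 : ℂ) * z + (A 1 1 : ℂ)) ^ m *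
      p.eval (((A 0 0 : ℂ) * z + (A 0 1 : ℂ)) / ((A 1 0 : ℂ) * z + (A 1 1 : ℂ))) := by
  conv_rhs => rw [eq_sum_range_of_degree_lt hp]
  unfold polyAct
  rw [eval_finsetSum, eval_finsetSum, Finset.mul_sum]
  refine Finset.sum_congr rfl fun j hj => ?_
  have hj' : j ≤ m := Nat.le_of_lt_succ (Finset.mem_range.mp hj)
  simp only [eval_mul, eval_C, eval_pow, eval_add, eval_X]
  have hm : ((A 1 0 : ℂ) * z + (A 1 1 : ℂ)) ^ m =
      ((A 1 0 : ℂ) * z + (A 1 1 : ℂ)) ^ j * ((A 1 0 : ℂ) * z + (A 1 1 : ℂ)) ^ (m - j) := by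
    rw [← pow_add, Nat.add_sub_cancel' hj']
  rw [hm, div_pow]
  generalize (A 1 0 : ℂ) * z + (A 1 1 : ℂ) = w at hz ⊢
  have hw : w ^ j ≠ 0 := pow_ne_zero _ hz
  field_simp

theorem polyAct_one (m : ℕ) {p : ℂ[X]} (hp : p.degree < (m + 1 : ℕ)) : polyAct m 1 p = p := by
  conv_rhs => rw [eq_sum_range_of_degree_lt hp]
  unfold polyAct
  refine Finset.sum_congr rfl fun j _ => ?_
  simp

/-- the coefficients of `polyAct m A p` are integral linear combinations of those of `p` -/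
theorem polyAct_coeff_int (m : ℕ) (A : Matrix (Fin 2) (Fin 2) ℤ) (i : ℕ) :
    ∃ c : ℕ → ℤ, ∀ p : ℂ[X],
      (polyAct m A p).coeff i = ∑ j ∈ Finset.range (m + 1), (c j : ℂ) * p.coeff j := by
  refine ⟨fun j => ((C (A 0 0) * X + C (A 0 1)) ^ j * (C (A 1 0) * X + C (A 1 1)) ^ (m - j) :
    ℤ[X]).coeff i, fun p => ?_⟩
  unfold polyAct
  rw [Polynomial.finsetSum_coeff]
  refine Finset.sum_congr rfl fun j _ => ?_
  have hmap : (C (A 0 0 : ℂ) * X + C (A 0 1 : ℂ)) ^ j * (C (A 1 0 : ℂ) * X + C (A 1 1 : ℂ)) ^ (m - j)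
      = ((C (A 0 0) * X + C (A 0 1)) ^ j * (C (A 1 0) * X + C (A 1 1)) ^ (m - j) : ℤ[X]).map
        (Int.castRingHom ℂ) := by
    simp [Polynomial.map_mul, Polynomial.map_pow, Polynomial.map_add]
  rw [mul_assoc, hmap, coeff_C_mul, coeff_map, eq_intCast, mul_comm]

end Fermat.Agent.S22
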