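import Mathlib

/-!
# Decaying primitives on the upper half plane (work package A of the S22 project)

A function `g` on the upper half plane which is holomorphic, `h`-periodic and tends to zero at `i∞`
has a (unique) primitive with the same three properties.
-/

open UpperHalfPlane Complex
open scoped Manifold

namespace Fermat.Agent.S22

/-- holomorphic on the upper half plane, `h`-periodic, tends to zero at `i∞` -/
structure IsDecaying (h : ℝ) (g : ℍ → ℂ) : Prop where
  mdiff : MDiff g
  periodic : Function.Periodic (g ∘ ofComplex) (h : ℂ)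
  zero : IsZeroAtImInfty g

/-- `ofComplex` only depends on the point when the imaginary part is nonpositive. -/
private lemma primitive_ofComplex_add_real (h : ℝ) (w : ℂ) (hw : ¬ 0 < w.im) :
    ofComplex (w + (h : ℂ)) = ofComplex w := by
  have h1 : (w + (h : ℂ)).im ≤ 0 := by simpa using not_lt.mp hw
  rw [ofComplex_apply_of_im_nonpos h1, ofComplex_apply_of_im_nonpos (not_lt.mp hw)]

theorem exists_primitive {h : ℝ} (hh : 0 < h) {g : ℍ → ℂ} (hg : IsDecaying h g) :
    ∃ G : ℍ → ℂ, IsDecaying h G ∧ ∀ τ : ℍ, HasDerivAt (G ∘ ofComplex) (g τ) (τ : ℂ) := by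
  have hbdd : IsBoundedAtImInfty g := hg.zero.isBoundedAtImInfty
  set φ : ℂ → ℂ := cuspFunction h g with hφdef
  have hφd : DifferentiableOn ℂ φ (Metric.ball 0 1) :=
    differentiableOn_cuspFunction_ball hh hg.periodic hg.mdiff hbdd
  have hφ0 : φ 0 = 0 := by
    rw [hφdef, cuspFunction_apply_zero hh
      (analyticAt_cuspFunction_zero hh hg.periodic hg.mdiff hbdd) hg.periodic,
      hg.zero.valueAtInfty_eq_zero]
  set ψ : ℂ → ℂ := dslope φ 0 with hψdef
  have hψd : DifferentiableOn ℂ ψ (Metric.ball 0 1) :=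
    (Complex.differentiableOn_dslope (Metric.ball_mem_nhds 0 one_pos)).mpr hφd
  obtain ⟨Ψ, hΨ0, hΨ⟩ := hψd.isExactOn_ball.with_val_at 0 0
  set c : ℂ := (h : ℂ) / (2 * Real.pi * Complex.I) with hcdef
  have hpi : (2 * (Real.pi : ℂ) * Complex.I) ≠ 0 := Complex.two_pi_I_ne_zero
  have hhC : (h : ℂ) ≠ 0 := by exact_mod_cast hh.ne'
  -- the candidate primitive, as a function on `ℂ`
  set Gc : ℂ → ℂ := fun z => c * Ψ (Function.Periodic.qParam h z) with hGc
  have hq_mem : ∀ τ : ℍ, Function.Periodic.qParam h (τ : ℂ) ∈ Metric.ball (0 : ℂ) 1 := by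
    intro τ
    rw [mem_ball_zero_iff]
    exact Function.Periodic.norm_qParam_lt_one hh τ.im_pos
  -- derivative of `Gc` at points of the upper half plane
  have hGc_deriv : ∀ τ : ℍ, HasDerivAt Gc (g τ) (τ : ℂ) := by
    intro τ
    set q := Function.Periodic.qParam h (τ : ℂ) with hq
    have hqd : HasDerivAt (Function.Periodic.qParam h)
        (q * (2 * Real.pi * Complex.I / h)) (τ : ℂ) := by
      have h0 : HasDerivAt (fun z : ℂ => 2 * (Real.pi : ℂ) * Complex.I * z / (h : ℂ))
          (2 * (Real.pi : ℂ) * Complex.I / (h : ℂ)) (τ : ℂ) := by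
        simpa using ((hasDerivAt_id (τ : ℂ)).const_mul (2 * (Real.pi : ℂ) * Complex.I)).div_const
          (h : ℂ)
      exact h0.cexp
    have h1 : HasDerivAt (fun z => Ψ (Function.Periodic.qParam h z))
        (ψ q * (q * (2 * Real.pi * Complex.I / h))) (τ : ℂ) :=
      (hΨ q (hq_mem τ)).comp (τ : ℂ) hqd
    have h2 : HasDerivAt Gc (c * (ψ q * (q * (2 * Real.pi * Complex.I / h)))) (τ : ℂ) :=
      h1.const_mul c
    have h3 : c * (ψ q * (q * (2 * Real.pi * Complex.I / h))) = g τ := by
      have e1 : q * ψ q = φ q := by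
        have := sub_smul_dslope φ 0 q
        simpa [hφ0, hψdef] using this
      have e2 : φ q = g τ := eq_cuspFunction τ hh.ne' hg.periodic
      rw [← e2, ← e1, hcdef]
      field_simp
    rwa [h3] at h2
  -- `Gc` agrees with `(Gc ∘ (↑) ) ∘ ofComplex` near points of the upper half plane
  set G : ℍ → ℂ := fun τ => Gc (τ : ℂ) with hGdef
  have hEq : ∀ τ : ℍ, (G ∘ ofComplex) =ᶠ[nhds (τ : ℂ)] Gc := by
    intro τ
    have hopen : IsOpen {z : ℂ | 0 < z.im} := isOpen_lt continuous_const Complex.continuous_im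
    filter_upwards [hopen.mem_nhds τ.im_pos] with z hz
    simp only [Function.comp_apply, hGdef]
    rw [ofComplex_apply_of_im_pos hz]
  have hG_deriv : ∀ τ : ℍ, HasDerivAt (G ∘ ofComplex) (g τ) (τ : ℂ) := fun τ =>
    (hGc_deriv τ).congr_of_eventuallyEq (hEq τ)
  refine ⟨G, ⟨?_, ?_, ?_⟩, hG_deriv⟩
  · -- holomorphic
    intro τ
    exact UpperHalfPlane.mdifferentiableAt_iff.mpr (hG_deriv τ).differentiableAt
  · -- periodic
    intro w
    by_cases hw : 0 < w.im
    · have hw' : 0 < (w + (h : ℂ)).im := by simpa using hw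
      simp only [Function.comp_apply, hGdef, hGc]
      rw [ofComplex_apply_of_im_pos hw', ofComplex_apply_of_im_pos hw]
      congr 2
      simp only [Function.Periodic.qParam]
      have : 2 * (Real.pi : ℂ) * Complex.I * (w + h) / h = 2 * Real.pi * Complex.I * w / h + 2 * Real.pi * Complex.I := by
        field_simp
      rw [this, Complex.exp_add, Complex.exp_two_pi_mul_I, mul_one]
    · simp only [Function.comp_apply]
      rw [primitive_ofComplex_add_real h w hw]
  · -- zero at infinity
    have hΨc : ContinuousAt Ψ 0 :=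
      (hΨ 0 (Metric.mem_ball_self one_pos)).continuousAt
    have ht : Filter.Tendsto (fun τ : ℍ => Ψ (Function.Periodic.qParam h (τ : ℂ)))
        atImInfty (nhds (Ψ 0)) :=
      hΨc.tendsto.comp (qParam_tendsto_atImInfty hh)
    have ht2 := ht.const_mul c
    rw [hΨ0, mul_zero] at ht2
    exact ht2

theorem exists_iterPrimitive {h : ℝ} (hh : 0 < h) (n : ℕ) {g : ℍ → ℂ} (hg : IsDecaying h g) :
    ∃ G : ℍ → ℂ, IsDecaying h G ∧ ∀ τ : ℍ, iteratedDeriv n (G ∘ ofComplex) (τ : ℂ) = g τ := by
  induction n generalizing g with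
  | zero => exact ⟨g, hg, fun τ => by simp⟩
  | succ n ih =>
    obtain ⟨G₀, hG₀, hG₀d⟩ := exists_primitive hh hg
    obtain ⟨G, hG, hGd⟩ := ih hG₀
    refine ⟨G, hG, fun τ => ?_⟩
    rw [iteratedDeriv_succ]
    have hopen : IsOpen {z : ℂ | 0 < z.im} := isOpen_lt continuous_const Complex.continuous_im
    have hEq : iteratedDeriv n (G ∘ ofComplex) =ᶠ[nhds (τ : ℂ)] (G₀ ∘ ofComplex) := by
      filter_upwards [hopen.mem_nhds τ.im_pos] with z hz
      have := hGd ⟨z, hz⟩
      simp only [Function.comp_apply]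
      rw [ofComplex_apply_of_im_pos hz]
      exact this
    rw [hEq.deriv_eq]
    exact (hG₀d τ).deriv

end Fermat.Agent.S22
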