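import Mathlib
import Fermat.Prelude.Def_CuspForm_HeckeAlgebra
import Fermat.Agent.S22.Primitive
import Fermat.Agent.S22.Bol
import Fermat.Agent.S22.PolyAct

/-!
# Eichler integrals and period polynomials of cusp forms on `Γ₀(N)`
(work package D of the S22 project)
-/

open UpperHalfPlane Complex Polynomial
open scoped Manifold ModularForm MatrixGroups

namespace Fermat.Agent.S22

section general

theorem contDiffAt_comp_ofComplex {F : ℍ → ℂ} (hF : MDiff F) (τ : ℍ) (n : WithTop ℕ∞) :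
    ContDiffAt ℂ n (F ∘ ofComplex) (τ : ℂ) := by
  have h1 : DifferentiableOn ℂ (F ∘ ofComplex) {z : ℂ | 0 < z.im} :=
    UpperHalfPlane.mdifferentiable_iff.mp hF
  exact (h1.contDiffOn isOpen_upperHalfPlaneSet).contDiffAt
    (isOpen_upperHalfPlaneSet.mem_nhds τ.im_pos)

theorem iteratedDeriv_sub_comp_ofComplex {F G : ℍ → ℂ} (hF : MDiff F) (hG : MDiff G) (n : ℕ)
    (τ : ℍ) : iteratedDeriv n ((F - G) ∘ ofComplex) (τ : ℂ) =
      iteratedDeriv n (F ∘ ofComplex) (τ : ℂ) - iteratedDeriv n (G ∘ ofComplex) (τ : ℂ) :=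
  iteratedDeriv_sub (contDiffAt_comp_ofComplex hF τ n) (contDiffAt_comp_ofComplex hG τ n)

theorem iteratedDeriv_add_comp_ofComplex {F G : ℍ → ℂ} (hF : MDiff F) (hG : MDiff G) (n : ℕ)
    (τ : ℍ) : iteratedDeriv n ((F + G) ∘ ofComplex) (τ : ℂ) =
      iteratedDeriv n (F ∘ ofComplex) (τ : ℂ) + iteratedDeriv n (G ∘ ofComplex) (τ : ℂ) :=
  iteratedDeriv_add (contDiffAt_comp_ofComplex hF τ n) (contDiffAt_comp_ofComplex hG τ n)

theorem iteratedDeriv_smul_comp_ofComplex (c : ℂ) (F : ℍ → ℂ) (n : ℕ)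
    (τ : ℍ) : iteratedDeriv n ((c • F) ∘ ofComplex) (τ : ℂ) =
      c * iteratedDeriv n (F ∘ ofComplex) (τ : ℂ) := by
  have : (c • F) ∘ ofComplex = fun z => c * (F ∘ ofComplex) z := by
    funext z; simp
  rw [this, iteratedDeriv_const_mul_field]

/-- uniqueness of decaying iterated primitives -/
theorem eq_of_iteratedDeriv_eq {F G : ℍ → ℂ} (hF : MDiff F) (hG : MDiff G)
    (hF0 : IsZeroAtImInfty F) (hG0 : IsZeroAtImInfty G) (n : ℕ)
    (h : ∀ τ : ℍ, iteratedDeriv n (F ∘ ofComplex) (τ : ℂ) =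
      iteratedDeriv n (G ∘ ofComplex) (τ : ℂ)) : F = G := by
  have hsub : MDiff (F - G) := hF.sub hG
  obtain ⟨p, -, hp⟩ := exists_polynomial_of_iteratedDeriv_eq_zero n hsub (fun τ => by
    rw [iteratedDeriv_sub_comp_ofComplex hF hG, h τ, sub_self])
  have h0 : IsZeroAtImInfty (F - G) := by
    have := Filter.ZeroAtFilter.add hF0 (Filter.ZeroAtFilter.neg hG0)
    rwa [← sub_eq_add_neg] at this
  have hp0 : p = 0 := by
    apply polynomial_eq_zero_of_isZeroAtImInfty
    have : (fun τ : ℍ => p.eval (τ : ℂ)) = F - G := by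
      funext τ; exact (hp τ).symm
    rw [this]; exact h0
  funext τ
  have := hp τ
  rw [hp0, eval_zero, Pi.sub_apply, sub_eq_zero] at this
  exact this

end general

variable {N : ℕ} [NeZero N] {m : ℕ}

theorem cuspForm_isDecaying {k : ℤ} (f : CuspForm (CongruenceSubgroup.Gamma0 N) k) :
    IsDecaying 1 f := by
  refine ⟨CuspFormClass.holo f, ?_, ?_⟩
  · have := SlashInvariantFormClass.periodic_comp_ofComplex (h := 1) f
      (by simp [CongruenceSubgroup.strictPeriods_Gamma0])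
    simpa using this
  · exact CuspFormClass.zero_at_infty f

/-- the Eichler integral of a cusp form of weight `m + 2`: its `(m+1)`-fold primitive which
tends to zero at `i∞` -/
noncomputable def eichler (f : CuspForm (CongruenceSubgroup.Gamma0 N) ((m : ℤ) + 2)) : ℍ → ℂ :=
  Classical.choose (exists_iterPrimitive one_pos (m + 1) (cuspForm_isDecaying f))

theorem eichler_isDecaying (f : CuspForm (CongruenceSubgroup.Gamma0 N) ((m : ℤ) + 2)) :
    IsDecaying 1 (eichler f) :=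
  (Classical.choose_spec (exists_iterPrimitive one_pos (m + 1) (cuspForm_isDecaying f))).1

theorem eichler_iteratedDeriv (f : CuspForm (CongruenceSubgroup.Gamma0 N) ((m : ℤ) + 2)) (τ : ℍ) :
    iteratedDeriv (m + 1) (eichler f ∘ ofComplex) (τ : ℂ) = f τ :=
  (Classical.choose_spec (exists_iterPrimitive one_pos (m + 1) (cuspForm_isDecaying f))).2 τ

theorem eichler_unique (f : CuspForm (CongruenceSubgroup.Gamma0 N) ((m : ℤ) + 2)) {F : ℍ → ℂ}
    (hF : MDiff F) (h0 : IsZeroAtImInfty F)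
    (hd : ∀ τ : ℍ, iteratedDeriv (m + 1) (F ∘ ofComplex) (τ : ℂ) = f τ) : F = eichler f :=
  eq_of_iteratedDeriv_eq hF (eichler_isDecaying f).mdiff h0 (eichler_isDecaying f).zero (m + 1)
    (fun τ => by rw [hd τ, eichler_iteratedDeriv])

theorem eichler_add (f g : CuspForm (CongruenceSubgroup.Gamma0 N) ((m : ℤ) + 2)) :
    eichler (f + g) = eichler f + eichler g := by
  symm
  apply eichler_unique
  · exact (eichler_isDecaying f).mdiff.add (eichler_isDecaying g).mdiff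
  · exact Filter.ZeroAtFilter.add (eichler_isDecaying f).zero (eichler_isDecaying g).zero
  · intro τ
    rw [iteratedDeriv_add_comp_ofComplex (eichler_isDecaying f).mdiff (eichler_isDecaying g).mdiff,
      eichler_iteratedDeriv, eichler_iteratedDeriv]
    rfl

theorem eichler_smul (c : ℂ) (f : CuspForm (CongruenceSubgroup.Gamma0 N) ((m : ℤ) + 2)) :
    eichler (c • f) = c • eichler f := by
  symm
  apply eichler_unique
  · exact (eichler_isDecaying f).mdiff.const_smul c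
  · exact Filter.ZeroAtFilter.smul c (eichler_isDecaying f).zero
  · intro τ
    rw [iteratedDeriv_smul_comp_ofComplex, eichler_iteratedDeriv]
    rfl


/-- the slash action of `SL(2, ℤ)` on polynomial functions is given by `polyAct` -/
theorem polynomial_slash (m : ℕ) {p : ℂ[X]} (hp : p.degree < (m + 1 : ℕ)) (γ : SL(2, ℤ)) (τ : ℍ) :
    ((fun z : ℍ => p.eval (z : ℂ)) ∣[-(m : ℤ)] γ) τ = (polyAct m γ.val p).eval (τ : ℂ) := by
  have hden : denom γ τ = (γ 1 0 : ℂ) * τ + (γ 1 1 : ℂ) := by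
    rw [ModularGroup.denom_apply]
  have hne : ((γ.val 1 0 : ℤ) : ℂ) * τ + ((γ.val 1 1 : ℤ) : ℂ) ≠ 0 := by
    have := denom_ne_zero γ τ
    rwa [hden] at this
  rw [ModularForm.SL_slash_apply, polyAct_eval m γ.val hp τ hne, neg_neg, zpow_natCast, hden,
    coe_specialLinearGroup_apply, mul_comm]
  simp

theorem iteratedDeriv_eichler_slash (f : CuspForm (CongruenceSubgroup.Gamma0 N) ((m : ℤ) + 2))
    {γ : SL(2, ℤ)} (hγ : γ ∈ CongruenceSubgroup.Gamma0 N) (τ : ℍ) :
    iteratedDeriv (m + 1) ((eichler f ∣[-(m : ℤ)] γ) ∘ ofComplex) (τ : ℂ) = f τ := by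
  have h1 := bol m (eichler_isDecaying f).mdiff (γ : GL (Fin 2) ℝ) (by simp) τ
  rw [ModularForm.SL_slash, h1, eichler_iteratedDeriv]
  have h2 := SlashInvariantFormClass.slash_action_eq f _
    (Subgroup.mem_map_of_mem (Matrix.SpecialLinearGroup.mapGL ℝ) hγ)
  have h3 : ((f : ℍ → ℂ) ∣[(m : ℤ) + 2] γ) τ = f τ := congrFun h2 τ
  rw [ModularForm.SL_slash_apply] at h3
  rw [mul_comm]
  exact h3

theorem exists_periodPoly (f : CuspForm (CongruenceSubgroup.Gamma0 N) ((m : ℤ) + 2))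
    {γ : SL(2, ℤ)} (hγ : γ ∈ CongruenceSubgroup.Gamma0 N) :
    ∃ p : ℂ[X], p.degree < (m + 1 : ℕ) ∧
      ∀ τ : ℍ, (eichler f ∣[-(m : ℤ)] γ) τ - eichler f τ = p.eval (τ : ℂ) := by
  have hE := (eichler_isDecaying f).mdiff
  have hEγ : MDiff (eichler f ∣[-(m : ℤ)] γ) := hE.slash _ _
  obtain ⟨p, hp1, hp2⟩ := exists_polynomial_of_iteratedDeriv_eq_zero (m + 1)
    (F := eichler f ∣[-(m : ℤ)] γ - eichler f) (hEγ.sub hE) (fun τ => by
    rw [iteratedDeriv_sub_comp_ofComplex hEγ hE, iteratedDeriv_eichler_slash f hγ,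
      eichler_iteratedDeriv, sub_self])
  exact ⟨p, hp1, fun τ => hp2 τ⟩

open Classical in
/-- the period polynomial `E_f ∣[-m] γ - E_f` for `γ ∈ Γ₀(N)` (and `0` for other `γ`) -/
noncomputable def periodPoly (f : CuspForm (CongruenceSubgroup.Gamma0 N) ((m : ℤ) + 2))
    (γ : SL(2, ℤ)) : ℂ[X] :=
  if h : γ ∈ CongruenceSubgroup.Gamma0 N then Classical.choose (exists_periodPoly f h) else 0

theorem periodPoly_degree_lt (f : CuspForm (CongruenceSubgroup.Gamma0 N) ((m : ℤ) + 2))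
    (γ : SL(2, ℤ)) : (periodPoly f γ).degree < (m + 1 : ℕ) := by
  unfold periodPoly
  split_ifs with h
  · exact (Classical.choose_spec (exists_periodPoly f h)).1
  · rw [degree_zero]; exact WithBot.bot_lt_coe _

theorem periodPoly_spec (f : CuspForm (CongruenceSubgroup.Gamma0 N) ((m : ℤ) + 2)) {γ : SL(2, ℤ)}
    (hγ : γ ∈ CongruenceSubgroup.Gamma0 N) (τ : ℍ) :
    (eichler f ∣[-(m : ℤ)] γ) τ - eichler f τ = (periodPoly f γ).eval (τ : ℂ) := by
  unfold periodPoly
  rw [dif_pos hγ]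
  exact (Classical.choose_spec (exists_periodPoly f hγ)).2 τ

theorem periodPoly_of_not_mem (f : CuspForm (CongruenceSubgroup.Gamma0 N) ((m : ℤ) + 2))
    {γ : SL(2, ℤ)} (hγ : γ ∉ CongruenceSubgroup.Gamma0 N) : periodPoly f γ = 0 := by
  unfold periodPoly
  rw [dif_neg hγ]

theorem periodPoly_add (f g : CuspForm (CongruenceSubgroup.Gamma0 N) ((m : ℤ) + 2)) (γ : SL(2, ℤ)) :
    periodPoly (f + g) γ = periodPoly f γ + periodPoly g γ := by
  by_cases hγ : γ ∈ CongruenceSubgroup.Gamma0 N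
  · apply polynomial_eq_of_eval_eq
    intro τ
    rw [eval_add, ← periodPoly_spec _ hγ, ← periodPoly_spec _ hγ, ← periodPoly_spec _ hγ,
      eichler_add, SlashAction.add_slash]
    simp only [Pi.add_apply]
    ring
  · rw [periodPoly_of_not_mem _ hγ, periodPoly_of_not_mem _ hγ, periodPoly_of_not_mem _ hγ, add_zero]

theorem periodPoly_smul (c : ℂ) (f : CuspForm (CongruenceSubgroup.Gamma0 N) ((m : ℤ) + 2))
    (γ : SL(2, ℤ)) : periodPoly (c • f) γ = c • periodPoly f γ := by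
  by_cases hγ : γ ∈ CongruenceSubgroup.Gamma0 N
  · apply polynomial_eq_of_eval_eq
    intro τ
    rw [eval_smul, ← periodPoly_spec _ hγ, ← periodPoly_spec _ hγ, eichler_smul,
      ModularForm.SL_smul_slash]
    simp only [Pi.smul_apply, smul_eq_mul]
    ring
  · rw [periodPoly_of_not_mem _ hγ, periodPoly_of_not_mem _ hγ, smul_zero]

theorem periodPoly_mul (f : CuspForm (CongruenceSubgroup.Gamma0 N) ((m : ℤ) + 2)) {γ₁ γ₂ : SL(2, ℤ)}
    (h₁ : γ₁ ∈ CongruenceSubgroup.Gamma0 N) (h₂ : γ₂ ∈ CongruenceSubgroup.Gamma0 N) :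
    periodPoly f (γ₁ * γ₂) = polyAct m γ₂.val (periodPoly f γ₁) + periodPoly f γ₂ := by
  apply polynomial_eq_of_eval_eq
  intro τ
  have h12 : γ₁ * γ₂ ∈ CongruenceSubgroup.Gamma0 N := mul_mem h₁ h₂
  have hfun : (fun z : ℍ => (periodPoly f γ₁).eval (z : ℂ)) = eichler f ∣[-(m : ℤ)] γ₁ - eichler f := by
    funext z
    rw [← periodPoly_spec f h₁ z]
    rfl
  have key : (eichler f ∣[-(m : ℤ)] γ₁ - eichler f) ∣[-(m : ℤ)] γ₂ =
      (eichler f ∣[-(m : ℤ)] γ₁) ∣[-(m : ℤ)] γ₂ - eichler f ∣[-(m : ℤ)] γ₂ := by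
    rw [sub_eq_add_neg, SlashAction.add_slash, SlashAction.neg_slash, ← sub_eq_add_neg]
  rw [eval_add, ← periodPoly_spec f h12, ← periodPoly_spec f h₂,
    ← polynomial_slash m (periodPoly_degree_lt f γ₁) γ₂ τ, hfun, SlashAction.slash_mul, key]
  simp only [Pi.sub_apply]
  ring

theorem periodPoly_one (f : CuspForm (CongruenceSubgroup.Gamma0 N) ((m : ℤ) + 2)) :
    periodPoly f 1 = 0 := by
  apply polynomial_eq_of_eval_eq
  intro τ
  rw [← periodPoly_spec f (one_mem _) τ, SlashAction.slash_one, sub_self, eval_zero]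

end Fermat.Agent.S22
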