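import Mathlib
import Fermat.Prelude.Def_CuspForm_HeckeAlgebra
import Fermat.Agent.S22.Period

/-!
# Period polynomials and Hecke operators (work package F of the S22 project)
-/

open UpperHalfPlane Complex Polynomial
open scoped Manifold ModularForm MatrixGroups

namespace Fermat.Agent.S22

theorem slash_apply_of_det_pos (k : ℤ) (F : ℍ → ℂ) {δ : GL (Fin 2) ℝ} (hδ : 0 < δ.det.val) (τ : ℍ) :
    (F ∣[k] δ) τ = F (δ • τ) * ((δ.det.val : ℝ) : ℂ) ^ (k - 1) * denom δ τ ^ (-k) := by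
  rw [ModularForm.slash_apply, UpperHalfPlane.σ, if_pos hδ, abs_of_pos hδ]
  rfl

theorem mdiff_sum {ι : Type} (s : Finset ι) (G : ι → ℍ → ℂ) (hG : ∀ i ∈ s, MDiff (G i)) :
    MDiff (∑ i ∈ s, G i) := by
  classical
  induction s using Finset.induction_on with
  | empty =>
    rw [Finset.sum_empty]
    exact (mdifferentiable_const : MDiff (fun _ : ℍ => (0 : ℂ)))
  | insert i t hi IH =>
    rw [Finset.sum_insert hi]
    exact (hG i (Finset.mem_insert_self i t)).add (IH fun j hj => hG j (Finset.mem_insert_of_mem hj))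

theorem isZeroAtImInfty_sum {ι : Type} (s : Finset ι) (G : ι → ℍ → ℂ)
    (hG : ∀ i ∈ s, IsZeroAtImInfty (G i)) : IsZeroAtImInfty (∑ i ∈ s, G i) := by
  classical
  induction s using Finset.induction_on with
  | empty =>
    rw [Finset.sum_empty]
    exact Filter.zero_zeroAtFilter atImInfty
  | insert i t hi IH =>
    rw [Finset.sum_insert hi]
    exact Filter.ZeroAtFilter.add (hG i (Finset.mem_insert_self i t))
      (IH fun j hj => hG j (Finset.mem_insert_of_mem hj))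

end Fermat.Agent.S22

namespace Fermat.Agent.S22

variable {N : ℕ} [NeZero N] {m : ℕ}

theorem iteratedDeriv_eichler_slash_GL (f : CuspForm (CongruenceSubgroup.Gamma0 N) ((m : ℤ) + 2))
    {δ : GL (Fin 2) ℝ} (hδ : 0 < δ.det.val) (τ : ℍ) :
    ((δ.det.val : ℝ) : ℂ) ^ (m + 1) *
      iteratedDeriv (m + 1) ((eichler f ∣[-(m : ℤ)] δ) ∘ ofComplex) (τ : ℂ) =
      ((f : ℍ → ℂ) ∣[(m : ℤ) + 2] δ) τ := by
  rw [bol m (eichler_isDecaying f).mdiff δ hδ τ, eichler_iteratedDeriv,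
    slash_apply_of_det_pos _ _ hδ]
  have : ((m : ℤ) + 2 - 1) = ((m + 1 : ℕ) : ℤ) := by push_cast; ring
  rw [this, zpow_natCast]
  ring

theorem eichler_of_sum (f f' : CuspForm (CongruenceSubgroup.Gamma0 N) ((m : ℤ) + 2))
    {ι : Type} [Fintype ι] (δ : ι → GL (Fin 2) ℝ) {d : ℝ} (hd : 0 < d)
    (hdet : ∀ i, (δ i).det.val = d) (hupper : ∀ i, (δ i) 1 0 = 0)
    (hf' : (f' : ℍ → ℂ) = ∑ i, (f : ℍ → ℂ) ∣[(m : ℤ) + 2] δ i) :
    eichler f' = ((d : ℂ) ^ (m + 1)) • ∑ i, eichler f ∣[-(m : ℤ)] δ i := by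
  symm
  have hE := (eichler_isDecaying f).mdiff
  have hmd : ∀ i, MDiff (eichler f ∣[-(m : ℤ)] δ i) := fun i => hE.slash _ _
  apply eichler_unique
  · exact (mdiff_sum _ _ fun i _ => hmd i).const_smul _
  · exact Filter.ZeroAtFilter.smul _ (isZeroAtImInfty_sum _ _ fun i _ =>
      IsZeroAtImInfty.slash _ (hupper i) (eichler_isDecaying f).zero)
  · intro τ
    rw [iteratedDeriv_smul_comp_ofComplex]
    have hcomp : (∑ i, eichler f ∣[-(m : ℤ)] δ i) ∘ ofComplex =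
        ∑ i, ((eichler f ∣[-(m : ℤ)] δ i) ∘ ofComplex) := by
      funext z
      simp [Finset.sum_apply]
    rw [hcomp, iteratedDeriv_sum fun i _ => contDiffAt_comp_ofComplex (hmd i) τ _, Finset.mul_sum,
      hf', Finset.sum_apply]
    refine Finset.sum_congr rfl fun i _ => ?_
    rw [← iteratedDeriv_eichler_slash_GL f (by rw [hdet i]; exact hd) τ, hdet i]

end Fermat.Agent.S22

namespace Fermat.Agent.S22

variable {N : ℕ} [NeZero N] {m : ℕ}

theorem polynomial_slash_GL (m : ℕ) {p : ℂ[X]} (hp : p.degree < (m + 1 : ℕ)) (δ : GL (Fin 2) ℝ)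
    (A : Matrix (Fin 2) (Fin 2) ℤ) (hA : ∀ a b, δ a b = ((A a b : ℤ) : ℝ)) {D : ℝ} (hD : 0 < D)
    (hdet : δ.det.val = D) (τ : ℍ) :
    (D : ℂ) ^ (m + 1) * ((fun z : ℍ => p.eval (z : ℂ)) ∣[-(m : ℤ)] δ) τ =
      (polyAct m A p).eval (τ : ℂ) := by
  have hδ : 0 < δ.det.val := by rw [hdet]; exact hD
  have hden : denom δ τ = ((A 1 0 : ℤ) : ℂ) * τ + ((A 1 1 : ℤ) : ℂ) := by
    simp [denom, hA]
  have hnum : num δ τ = ((A 0 0 : ℤ) : ℂ) * τ + ((A 0 1 : ℤ) : ℂ) := by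
    simp [num, hA]
  have hne : ((A 1 0 : ℤ) : ℂ) * τ + ((A 1 1 : ℤ) : ℂ) ≠ 0 := by
    have := denom_ne_zero δ τ
    rwa [hden] at this
  have hD' : (D : ℂ) ≠ 0 := by exact_mod_cast hD.ne'
  rw [slash_apply_of_det_pos _ _ hδ, polyAct_eval m A hp τ hne, coe_smul_of_det_pos hδ, hden, hnum,
    hdet, neg_neg, zpow_natCast]
  have : (-(m : ℤ) - 1) = -((m + 1 : ℕ) : ℤ) := by push_cast; ring
  rw [this, zpow_neg, zpow_natCast]
  field_simp

end Fermat.Agent.S22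

namespace Fermat.Agent.S22

variable {N : ℕ} [NeZero N] {m : ℕ}

theorem periodPoly_of_sum (f f' : CuspForm (CongruenceSubgroup.Gamma0 N) ((m : ℤ) + 2))
    {ι : Type} [Fintype ι] (δ : ι → GL (Fin 2) ℝ) (A : ι → Matrix (Fin 2) (Fin 2) ℤ)
    (hA : ∀ i a b, δ i a b = ((A i a b : ℤ) : ℝ)) {D : ℝ} (hD : 0 < D)
    (hdet : ∀ i, (δ i).det.val = D) (hupper : ∀ i, (δ i) 1 0 = 0)
    (hf' : (f' : ℍ → ℂ) = ∑ i, (f : ℍ → ℂ) ∣[(m : ℤ) + 2] δ i)
    {γ : SL(2, ℤ)} (hγ : γ ∈ CongruenceSubgroup.Gamma0 N) (σ : Equiv.Perm ι) (γ' : ι → SL(2, ℤ))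
    (hγ' : ∀ i, γ' i ∈ CongruenceSubgroup.Gamma0 N)
    (hrel : ∀ i, δ i * Matrix.SpecialLinearGroup.mapGL ℝ γ =
      Matrix.SpecialLinearGroup.mapGL ℝ (γ' i) * δ (σ i)) :
    periodPoly f' γ = ∑ i, polyAct m (A (σ i)) (periodPoly f (γ' i)) := by
  apply polynomial_eq_of_eval_eq
  intro τ
  set E := eichler f with hE
  have hE' : eichler f' = ((D : ℂ) ^ (m + 1)) • ∑ i, E ∣[-(m : ℤ)] δ i :=
    eichler_of_sum f f' δ hD hdet hupper hf'
  -- the slashed Eichler integral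
  have h1 : eichler f' ∣[-(m : ℤ)] γ =
      ((D : ℂ) ^ (m + 1)) • ∑ i, (E ∣[-(m : ℤ)] γ' i) ∣[-(m : ℤ)] δ (σ i) := by
    rw [hE', ModularForm.SL_smul_slash, ModularForm.SL_slash, SlashAction.sum_slash]
    congr 1
    refine Finset.sum_congr rfl fun i _ => ?_
    rw [← SlashAction.slash_mul,
      show δ i * Matrix.SpecialLinearGroup.toGL ((Matrix.SpecialLinearGroup.map (Int.castRingHom ℝ)) γ)
        = Matrix.SpecialLinearGroup.mapGL ℝ (γ' i) * δ (σ i) from hrel i, SlashAction.slash_mul]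
    rfl
  have h2 : eichler f' = ((D : ℂ) ^ (m + 1)) • ∑ i, E ∣[-(m : ℤ)] δ (σ i) := by
    rw [hE']
    congr 1
    exact (Equiv.sum_comp σ (fun i => E ∣[-(m : ℤ)] δ i)).symm
  rw [← periodPoly_spec f' hγ τ, h1]
  conv_lhs => rw [h2]
  rw [eval_finsetSum]
  simp only [Pi.smul_apply, Finset.sum_apply, smul_eq_mul]
  rw [← mul_sub, ← Finset.sum_sub_distrib, Finset.mul_sum]
  refine Finset.sum_congr rfl fun i _ => ?_
  rw [← polynomial_slash_GL m (periodPoly_degree_lt f (γ' i)) (δ (σ i)) (A (σ i)) (hA (σ i)) hD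
    (hdet (σ i)) τ]
  congr 1
  have hfun : (fun z : ℍ => (periodPoly f (γ' i)).eval (z : ℂ)) = E ∣[-(m : ℤ)] γ' i - E := by
    funext z
    rw [← periodPoly_spec f (hγ' i) z]
    rfl
  have key : (E ∣[-(m : ℤ)] γ' i - E) ∣[-(m : ℤ)] δ (σ i) =
      (E ∣[-(m : ℤ)] γ' i) ∣[-(m : ℤ)] δ (σ i) - E ∣[-(m : ℤ)] δ (σ i) := by
    rw [sub_eq_add_neg, SlashAction.add_slash, SlashAction.neg_slash, ← sub_eq_add_neg]
  rw [hfun, key]
  rfl

end Fermat.Agent.S22

namespace Fermat.Agent.S22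

open P2MW.S_ModularForm_heckeT_slash_eq_self_of_mem_Gamma0.ModularForm.HeckeSlashInvariance

variable {N : ℕ} [NeZero N] {m : ℕ}

/-- reindexing a finite family by `Fin n` -/
theorem exists_fin_of_fintype {ι : Type} [Fintype ι] (g : ι → SL(2, ℤ))
    (A : ι → Matrix (Fin 2) (Fin 2) ℤ) (hg : ∀ i, g i ∈ CongruenceSubgroup.Gamma0 N)
    (F : CuspForm (CongruenceSubgroup.Gamma0 N) ((m : ℤ) + 2) → ℂ[X])
    (hF : ∀ f, F f = ∑ i, polyAct m (A i) (periodPoly f (g i))) :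
    ∃ (n : ℕ) (g' : Fin n → SL(2, ℤ)) (A' : Fin n → Matrix (Fin 2) (Fin 2) ℤ),
      (∀ i, g' i ∈ CongruenceSubgroup.Gamma0 N) ∧
      ∀ f : CuspForm (CongruenceSubgroup.Gamma0 N) ((m : ℤ) + 2),
        F f = ∑ i, polyAct m (A' i) (periodPoly f (g' i)) := by
  let e := Fintype.equivFin ι
  refine ⟨Fintype.card ι, fun i => g (e.symm i), fun i => A (e.symm i), fun i => hg _, fun f => ?_⟩
  rw [hF f]
  exact (Equiv.sum_comp e.symm (fun x => polyAct m (A x) (periodPoly f (g x)))).symm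

theorem periodPoly_heckeT {p : ℕ} (hp : p.Prime) (hpN : ¬ p ∣ N) {γ : SL(2, ℤ)}
    (hγ : γ ∈ CongruenceSubgroup.Gamma0 N) :
    ∃ (n : ℕ) (g : Fin n → SL(2, ℤ)) (A : Fin n → Matrix (Fin 2) (Fin 2) ℤ),
      (∀ i, g i ∈ CongruenceSubgroup.Gamma0 N) ∧
      ∀ f : CuspForm (CongruenceSubgroup.Gamma0 N) ((m : ℤ) + 2),
        periodPoly (CuspForm.heckeTLin ((m : ℤ) + 2) hp hpN f) γ =
          ∑ i, polyAct m (A i) (periodPoly f (g i)) := by
  haveI : Fact p.Prime := ⟨hp⟩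
  haveI : NeZero p := ⟨hp.ne_zero⟩
  have hp0 : p ≠ 0 := hp.ne_zero
  have hcN : (N : ℤ) ∣ γ 1 0 :=
    (ZMod.intCast_zmod_eq_zero_iff_dvd _ _).mp (CongruenceSubgroup.Gamma0_mem.mp hγ)
  let A : OnePoint (ZMod p) → Matrix (Fin 2) (Fin 2) ℤ := fun x =>
    x.elim !![(p : ℤ), 0; 0, 1] (fun j => !![1, (j.val : ℤ); 0, (p : ℤ)])
  let σ : Equiv.Perm (OnePoint (ZMod p)) := MulAction.toPerm (redMatrix p γ)
  let γ' : OnePoint (ZMod p) → SL(2, ℤ) := fun x => Classical.choose (heckeRep_mul hpN γ hcN x)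
  have hγ'spec := fun x => Classical.choose_spec (heckeRep_mul hpN γ hcN x)
  have hγ' : ∀ x, γ' x ∈ CongruenceSubgroup.Gamma0 N := fun x =>
    CongruenceSubgroup.Gamma0_mem.mpr ((ZMod.intCast_zmod_eq_zero_iff_dvd _ _).mpr (hγ'spec x).1)
  apply exists_fin_of_fintype (fun x => γ' x) (fun x => A (σ x)) hγ'
  intro f
  refine periodPoly_of_sum f _ (heckeRep p) A ?_ (D := (p : ℝ)) (by exact_mod_cast hp.pos) ?_ ?_ ?_
    hγ σ γ' hγ' (fun x => (hγ'spec x).2)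
  · intro x a b
    induction x using OnePoint.rec with
    | infty =>
      simp only [heckeRep_infty, ModularForm.val_heckeDiagMatrix hp0, A, OnePoint.elim_infty]
      fin_cases a <;> fin_cases b <;> simp
    | coe j =>
      simp only [heckeRep_coe, ModularForm.val_heckeMatrix hp0, A, OnePoint.elim_some]
      fin_cases a <;> fin_cases b <;> simp
  · intro x
    induction x using OnePoint.rec with
    | infty => rw [heckeRep_infty, ModularForm.det_heckeDiagMatrix hp0]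
    | coe j => rw [heckeRep_coe, ModularForm.det_heckeMatrix hp0]
  · intro x
    induction x using OnePoint.rec with
    | infty => rw [heckeRep_infty, ModularForm.val_heckeDiagMatrix hp0]; simp
    | coe j => rw [heckeRep_coe, ModularForm.val_heckeMatrix hp0]; simp
  · rw [CuspForm.coe_heckeTLin_apply]
    exact heckeT_eq_sum_onePoint _ _

end Fermat.Agent.S22

namespace Fermat.Agent.S22

open P2MW.S_ModularForm_heckeT_slash_eq_self_of_mem_Gamma0.ModularForm.HeckeSlashInvariance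

variable {N : ℕ} [NeZero N] {m : ℕ}

theorem periodPoly_heckeU {p : ℕ} (hpN : p ∣ N) {γ : SL(2, ℤ)}
    (hγ : γ ∈ CongruenceSubgroup.Gamma0 N) :
    ∃ (n : ℕ) (g : Fin n → SL(2, ℤ)) (A : Fin n → Matrix (Fin 2) (Fin 2) ℤ),
      (∀ i, g i ∈ CongruenceSubgroup.Gamma0 N) ∧
      ∀ f : CuspForm (CongruenceSubgroup.Gamma0 N) ((m : ℤ) + 2),
        periodPoly (CuspForm.heckeULin ((m : ℤ) + 2) hpN f) γ =
          ∑ i, polyAct m (A i) (periodPoly f (g i)) := by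
  have hp0 : p ≠ 0 := fun h => NeZero.ne N (by rw [h] at hpN; exact Nat.eq_zero_of_zero_dvd hpN)
  haveI : NeZero p := ⟨hp0⟩
  have hcN : (N : ℤ) ∣ γ 1 0 :=
    (ZMod.intCast_zmod_eq_zero_iff_dvd _ _).mp (CongruenceSubgroup.Gamma0_mem.mp hγ)
  have hc : (p : ℤ) ∣ γ 1 0 := (Int.natCast_dvd_natCast.mpr hpN).trans hcN
  have hc0 : ((γ 1 0 : ℤ) : ZMod p) = 0 := (ZMod.intCast_zmod_eq_zero_iff_dvd _ _).mpr hc
  let A : ZMod p → Matrix (Fin 2) (Fin 2) ℤ := fun j => !![1, (j.val : ℤ); 0, (p : ℤ)]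
  let σ : Equiv.Perm (ZMod p) := affinePerm γ hc0
  let γ' : ZMod p → SL(2, ℤ) := fun x => Classical.choose (heckeMatrix_mul_of_dvd γ hc x)
  have hγ'spec := fun x => Classical.choose_spec (heckeMatrix_mul_of_dvd γ hc x)
  have hγ' : ∀ x, γ' x ∈ CongruenceSubgroup.Gamma0 N := fun x => by
    rw [CongruenceSubgroup.Gamma0_mem, (hγ'spec x).1]
    push_cast
    rw [CongruenceSubgroup.Gamma0_mem.mp hγ, mul_zero]
  apply exists_fin_of_fintype (fun x => γ' x) (fun x => A (σ x)) hγ'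
  intro f
  refine periodPoly_of_sum f _ (fun x : ZMod p => ModularForm.heckeMatrix p x.val) A ?_
    (D := (p : ℝ)) (by exact_mod_cast Nat.pos_of_ne_zero hp0) ?_ ?_ ?_
    hγ σ γ' hγ' (fun x => (hγ'spec x).2)
  · intro x a b
    simp only [ModularForm.val_heckeMatrix hp0, A]
    fin_cases a <;> fin_cases b <;> simp
  · intro x
    rw [ModularForm.det_heckeMatrix hp0]
  · intro x
    rw [ModularForm.val_heckeMatrix hp0]; simp
  · rw [CuspForm.coe_heckeULin_apply]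
    exact heckeU_eq_sum_zmod _ _

end Fermat.Agent.S22
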