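import Mathlib
import Fermat.Prelude.Def_CuspForm_HeckeAlgebra
import Fermat.Prelude.Thm_ModularForm_sturm_bound_Gamma0
import Fermat.Prelude.Thm_Subgroup_IsArithmetic_exists_nat_mem_strictPeriods_conj
import Fermat.Agent.S22.Period

/-!
# A cusp form with vanishing period polynomials is zero (work package E of the S22 project)
-/

open UpperHalfPlane Complex Polynomial
open scoped Manifold ModularForm MatrixGroups

namespace Fermat.Agent.S22

variable {N : ℕ} [NeZero N] {m : ℕ}

/-- If all period polynomials vanish, the Eichler integral is invariant under `Γ₀(N)`. -/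
theorem eichler_slash_eq_of_periodPoly_eq_zero
    (f : CuspForm (CongruenceSubgroup.Gamma0 N) ((m : ℤ) + 2))
    (h : ∀ γ ∈ CongruenceSubgroup.Gamma0 N, periodPoly f γ = 0)
    {γ : SL(2, ℤ)} (hγ : γ ∈ CongruenceSubgroup.Gamma0 N) :
    eichler f ∣[-(m : ℤ)] γ = eichler f := by
  ext τ
  have h1 := periodPoly_spec f hγ τ
  rw [h γ hγ, Polynomial.eval_zero, sub_eq_zero] at h1
  exact h1

open ConjAct Pointwise Matrix.SpecialLinearGroup in
theorem isBoundedAtImInfty_eichler_slash
    (f : CuspForm (CongruenceSubgroup.Gamma0 N) ((m : ℤ) + 2))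
    (hinv : ∀ γ ∈ CongruenceSubgroup.Gamma0 N, eichler f ∣[-(m : ℤ)] γ = eichler f)
    (σ : SL(2, ℤ)) : IsBoundedAtImInfty (eichler f ∣[-(m : ℤ)] σ) := by
  have hE : IsDecaying 1 (eichler f) := eichler_isDecaying f
  obtain ⟨M, hM0, hM⟩ := Subgroup.IsArithmetic.exists_nat_mem_strictPeriods_conj
    (Subgroup.map (mapGL ℝ) (CongruenceSubgroup.Gamma0 N))
  have hMσ : (M : ℝ) ∈ (toConjAct (mapGL ℝ σ)⁻¹ •
      (Subgroup.map (mapGL ℝ) (CongruenceSubgroup.Gamma0 N))).strictPeriods := by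
    have := hM σ⁻¹
    rwa [map_inv] at this
  have hMpos : (0 : ℝ) < (M : ℝ) := by exact_mod_cast hM0
  -- the translated cusp form
  let g := CuspForm.translate f (mapGL ℝ σ)
  have hgcoe : (g : ℍ → ℂ) = (f : ℍ → ℂ) ∣[(m : ℤ) + 2] (mapGL ℝ σ) := rfl
  have hg : IsDecaying (M : ℝ) (g : ℍ → ℂ) := by
    refine ⟨CuspFormClass.holo g, ?_, ?_⟩
    · exact SlashInvariantFormClass.periodic_comp_ofComplex g hMσ
    · have := CuspFormClass.zero_at_infty_slash f σ
      rwa [ModularForm.SL_slash] at this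
  obtain ⟨E', hE', hE'd⟩ := exists_iterPrimitive hMpos (m + 1) hg
  -- the translated Eichler integral
  let Esif : SlashInvariantForm (Subgroup.map (mapGL ℝ) (CongruenceSubgroup.Gamma0 N)) (-(m : ℤ)) :=
    { toFun := eichler f
      slash_action_eq' := by
        rintro γ ⟨γ', hγ', rfl⟩
        have := hinv γ' hγ'
        rwa [ModularForm.SL_slash] at this }
  let Ft := SlashInvariantForm.translate Esif (mapGL ℝ σ)
  set F : ℍ → ℂ := eichler f ∣[-(m : ℤ)] (mapGL ℝ σ) with hFdef
  have hFtcoe : (Ft : ℍ → ℂ) = F := rfl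
  have hFmd : MDiff F := hE.mdiff.slash _ _
  have hFper : Function.Periodic (F ∘ ofComplex) ((M : ℝ) : ℂ) := by
    rw [← hFtcoe]
    exact SlashInvariantFormClass.periodic_comp_ofComplex Ft hMσ
  -- Bol's identity
  have hdet : 0 < (mapGL ℝ σ).det.val := by
    simp
  have hFd : ∀ τ : ℍ, iteratedDeriv (m + 1) (F ∘ ofComplex) (τ : ℂ) = g τ := by
    intro τ
    have key : ((f : ℍ → ℂ) ∣[(m : ℤ) + 2] (mapGL ℝ σ)) τ =
        f ((mapGL ℝ σ) • τ) * denom (mapGL ℝ σ) τ ^ (-((m : ℤ) + 2)) :=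
      ModularForm.SL_slash_apply (k := (m : ℤ) + 2) (f : ℍ → ℂ) σ τ
    rw [hFdef, bol m hE.mdiff (mapGL ℝ σ) hdet τ, eichler_iteratedDeriv f, hgcoe, key, mul_comm]
  -- the difference is a polynomial
  have hRmd : MDiff (F - E') := hFmd.sub hE'.mdiff
  have hRd : ∀ τ : ℍ, iteratedDeriv (m + 1) ((F - E') ∘ ofComplex) (τ : ℂ) = 0 := by
    intro τ
    have hcomp : ((F - E') ∘ ofComplex) = (F ∘ ofComplex) - (E' ∘ ofComplex) := rfl
    rw [hcomp, iteratedDeriv_sub (contDiffAt_comp_ofComplex hFmd τ _)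
      (contDiffAt_comp_ofComplex hE'.mdiff τ _), hFd, hE'd, sub_self]
  obtain ⟨p, -, hp⟩ := exists_polynomial_of_iteratedDeriv_eq_zero (m + 1) hRmd hRd
  -- the polynomial is periodic, hence constant
  have hshift : ∀ τ : ℍ, ofComplex ((τ : ℂ) + ((M : ℝ) : ℂ)) = ((M : ℝ) +ᵥ τ) := by
    intro τ
    have him : 0 < ((τ : ℂ) + ((M : ℝ) : ℂ)).im := by simpa using τ.2
    rw [ofComplex_apply_of_im_pos him]
    ext
    simp [add_comm]
  have hpper : ∀ τ : ℍ, p.eval ((τ : ℂ) + ((M : ℝ) : ℂ)) = p.eval (τ : ℂ) := by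
    intro τ
    have h1 : (F - E') ((M : ℝ) +ᵥ τ) = (F - E') τ := by
      have hF1 := hFper (τ : ℂ)
      have hE1 := hE'.periodic (τ : ℂ)
      simp only [Function.comp_apply, hshift, ofComplex_apply] at hF1 hE1
      simp only [Pi.sub_apply, hF1, hE1]
    rw [hp, hp] at h1
    convert h1 using 2
    simp [add_comm]
  have hpC : p = C (p.coeff 0) :=
    polynomial_eq_C_of_periodic (h := (M : ℝ)) hMpos.ne' hpper
  -- conclusion
  have hFeq : F = E' + fun _ => p.coeff 0 := by
    funext τ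
    have := hp τ
    rw [hpC, eval_C] at this
    simp only [Pi.sub_apply, Pi.add_apply] at this ⊢
    linear_combination this
  have hbdd : IsBoundedAtImInfty F := by
    rw [hFeq]
    exact hE'.zero.isBoundedAtImInfty.add (Filter.const_boundedAtFilter _ _)
  rw [ModularForm.SL_slash]
  exact hbdd

theorem eq_zero_of_periodPoly_eq_zero (f : CuspForm (CongruenceSubgroup.Gamma0 N) ((m : ℤ) + 2))
    (h : ∀ γ ∈ CongruenceSubgroup.Gamma0 N, periodPoly f γ = 0) : f = 0 := by
  have hE : IsDecaying 1 (eichler f) := eichler_isDecaying f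
  have hinv : ∀ γ ∈ CongruenceSubgroup.Gamma0 N, eichler f ∣[-(m : ℤ)] γ = eichler f :=
    fun γ hγ => eichler_slash_eq_of_periodPoly_eq_zero f h hγ
  -- the Eichler integral as a modular form of weight `-m`
  let G : ModularForm (CongruenceSubgroup.Gamma0 N) (-(m : ℤ)) :=
    { toFun := eichler f
      slash_action_eq' := by
        rintro γ ⟨γ', hγ', rfl⟩
        have := hinv γ' hγ'
        rwa [ModularForm.SL_slash] at this
      holo' := hE.mdiff
      bdd_at_cusps' := by
        intro c hc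
        rw [Subgroup.IsArithmetic.isCusp_iff_isCusp_SL2Z] at hc
        rw [OnePoint.isBoundedAt_iff_forall_SL2Z hc]
        intro σ _
        exact isBoundedAtImInfty_eichler_slash f hinv σ }
  have hGcoe : (G : ℍ → ℂ) = eichler f := rfl
  have hG : G = 0 := by
    apply ModularForm.sturm_bound_Gamma0 N
    intro n hn
    have hle : -(m : ℤ) * ((CongruenceSubgroup.Gamma0 N).index : ℤ) ≤ 0 :=
      mul_nonpos_of_nonpos_of_nonneg (by omega) (Int.natCast_nonneg _)
    have h0 : (-(m : ℤ) * ((CongruenceSubgroup.Gamma0 N).index : ℤ)).toNat = 0 :=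
      Int.toNat_eq_zero.2 hle
    have hn0 : n = 0 := by
      rw [h0] at hn
      simpa using hn
    subst hn0
    rw [hGcoe, qExpansion_coeff]
    simp [UpperHalfPlane.IsZeroAtImInfty.cuspFunction_apply_zero hE.zero one_pos]
  have hE0 : eichler f = 0 := by
    rw [← hGcoe, hG]
    rfl
  ext τ
  rw [← eichler_iteratedDeriv f τ, hE0]
  have : ((0 : ℍ → ℂ) ∘ ofComplex) = fun _ : ℂ => (0 : ℂ) := by
    funext z; simp
  rw [this]
  simp

end Fermat.Agent.S22
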