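import Mathlib
import Fermat.Prelude.Def_CuspForm_HeckeAlgebra
import Fermat.Agent.S22.Period
import Fermat.Agent.S22.Injective
import Fermat.Agent.S22.Hecke
import Fermat.Agent.S22.Alt88.Glue
import Fermat.Agent.S22.Alt88.Gamma0FG

/-!
# The Hecke algebra in weight `≥ 2` is a finitely generated `ℤ`-module
(work package G of the S22 project)
-/

open UpperHalfPlane Complex Polynomial
open scoped Manifold ModularForm MatrixGroups

namespace Fermat.Agent.S22

section Lattice

variable {N : ℕ} [NeZero N] {m : ℕ}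

/-- The functional sending a cusp form to the `j`-th coefficient of its period polynomial
at `γ`. -/
noncomputable def periodCoeff (N : ℕ) [NeZero N] (m : ℕ) (γ : SL(2, ℤ)) (j : ℕ) :
    Module.Dual ℂ (CuspForm (CongruenceSubgroup.Gamma0 N) ((m : ℤ) + 2)) where
  toFun f := (periodPoly f γ).coeff j
  map_add' f g := by rw [periodPoly_add, Polynomial.coeff_add]
  map_smul' c f := by rw [periodPoly_smul, Polynomial.coeff_smul]; rfl

theorem periodCoeff_apply (γ : SL(2, ℤ)) (j : ℕ)
    (f : CuspForm (CongruenceSubgroup.Gamma0 N) ((m : ℤ) + 2)) :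
    periodCoeff N m γ j f = (periodPoly f γ).coeff j := rfl

theorem periodCoeff_eq_zero_of_le (γ : SL(2, ℤ)) {j : ℕ} (hj : m + 1 ≤ j) :
    periodCoeff N m γ j = 0 := by
  ext f
  rw [periodCoeff_apply, LinearMap.zero_apply]
  apply Polynomial.coeff_eq_zero_of_degree_lt
  refine lt_of_lt_of_le (periodPoly_degree_lt f γ) ?_
  exact_mod_cast hj

/-- A functional given by a coefficient of `polyAct m A (periodPoly f γ)` lies in any
`ℤ`-submodule containing all the coefficient functionals at `γ`. -/
theorem mem_of_eq_coeff_polyAct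
    (M0 : Submodule ℤ (Module.Dual ℂ (CuspForm (CongruenceSubgroup.Gamma0 N) ((m : ℤ) + 2))))
    (A : Matrix (Fin 2) (Fin 2) ℤ) (γ : SL(2, ℤ)) (h : ∀ j, periodCoeff N m γ j ∈ M0) (i : ℕ)
    (lam : Module.Dual ℂ (CuspForm (CongruenceSubgroup.Gamma0 N) ((m : ℤ) + 2)))
    (hlam : ∀ f, lam f = (polyAct m A (periodPoly f γ)).coeff i) : lam ∈ M0 := by
  obtain ⟨c, hc⟩ := polyAct_coeff_int m A i
  have hEq : lam = ∑ j ∈ Finset.range (m + 1), c j • periodCoeff N m γ j := by
    ext f
    rw [hlam f, hc, LinearMap.sum_apply]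
    refine Finset.sum_congr rfl fun j _ => ?_
    rw [LinearMap.smul_apply, periodCoeff_apply, zsmul_eq_mul]
  rw [hEq]
  exact Submodule.sum_mem _ fun j _ => Submodule.smul_mem _ _ (h j)

/-- The set of all coefficient functionals of period polynomials at elements of `Γ₀(N)`. -/
def periodCoeffSet (N : ℕ) [NeZero N] (m : ℕ) :
    Set (Module.Dual ℂ (CuspForm (CongruenceSubgroup.Gamma0 N) ((m : ℤ) + 2))) :=
  {lam | ∃ γ ∈ CongruenceSubgroup.Gamma0 N, ∃ j : ℕ, lam = periodCoeff N m γ j}

/-- The lattice of period functionals. -/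
noncomputable def periodLattice (N : ℕ) [NeZero N] (m : ℕ) :
    Submodule ℤ (Module.Dual ℂ (CuspForm (CongruenceSubgroup.Gamma0 N) ((m : ℤ) + 2))) :=
  Submodule.span ℤ (periodCoeffSet N m)

theorem periodCoeff_mem_periodLattice {γ : SL(2, ℤ)} (hγ : γ ∈ CongruenceSubgroup.Gamma0 N)
    (j : ℕ) : periodCoeff N m γ j ∈ periodLattice N m :=
  Submodule.subset_span ⟨γ, hγ, j, rfl⟩

/-- If a submodule contains the coefficient functionals at all elements of a generating set of
`Γ₀(N)`, it contains all the coefficient functionals. -/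
theorem periodCoeff_mem_of_generators
    (M0 : Submodule ℤ (Module.Dual ℂ (CuspForm (CongruenceSubgroup.Gamma0 N) ((m : ℤ) + 2))))
    (s : Set SL(2, ℤ)) (hs : Subgroup.closure s = CongruenceSubgroup.Gamma0 N)
    (h : ∀ g ∈ s, ∀ j, periodCoeff N m g j ∈ M0)
    {γ : SL(2, ℤ)} (hγ : γ ∈ CongruenceSubgroup.Gamma0 N) :
    ∀ j, periodCoeff N m γ j ∈ M0 := by
  rw [← hs] at hγ
  induction hγ using Subgroup.closure_induction with
  | mem g hg => exact h g hg
  | one =>
    intro j
    have : periodCoeff N m 1 j = 0 := by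
      ext f
      rw [periodCoeff_apply, periodPoly_one, Polynomial.coeff_zero, LinearMap.zero_apply]
    rw [this]
    exact Submodule.zero_mem _
  | mul g₁ g₂ hg₁ hg₂ ih₁ ih₂ =>
    intro i
    rw [hs] at hg₁ hg₂
    let lam : Module.Dual ℂ (CuspForm (CongruenceSubgroup.Gamma0 N) ((m : ℤ) + 2)) :=
      periodCoeff N m (g₁ * g₂) i - periodCoeff N m g₂ i
    have hlam : lam ∈ M0 := by
      refine mem_of_eq_coeff_polyAct M0 g₂.val g₁ ih₁ i lam fun f => ?_
      simp only [lam, LinearMap.sub_apply, periodCoeff_apply]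
      rw [periodPoly_mul f hg₁ hg₂, Polynomial.coeff_add, add_sub_cancel_right]
    have : periodCoeff N m (g₁ * g₂) i = lam + periodCoeff N m g₂ i := by
      simp only [lam, sub_add_cancel]
    rw [this]
    exact Submodule.add_mem _ hlam (ih₂ i)
  | inv g hg ih =>
    intro i
    rw [hs] at hg
    have hginv : g⁻¹ ∈ CongruenceSubgroup.Gamma0 N := inv_mem hg
    let lam : Module.Dual ℂ (CuspForm (CongruenceSubgroup.Gamma0 N) ((m : ℤ) + 2)) :=
      - periodCoeff N m g⁻¹ i
    have hlam : lam ∈ M0 := by
      refine mem_of_eq_coeff_polyAct M0 (g⁻¹).val g ih i lam fun f => ?_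
      simp only [lam, LinearMap.neg_apply, periodCoeff_apply]
      have h1 := periodPoly_mul f hg hginv
      rw [mul_inv_cancel, periodPoly_one] at h1
      have h2 : polyAct m (g⁻¹).val (periodPoly f g) = - periodPoly f g⁻¹ :=
        eq_neg_of_add_eq_zero_left h1.symm
      rw [h2, Polynomial.coeff_neg]
    have : periodCoeff N m g⁻¹ i = - lam := by simp only [lam, neg_neg]
    rw [this]
    exact Submodule.neg_mem _ hlam

theorem periodLattice_fg : (periodLattice N m).FG := by
  classical
  obtain ⟨s, hs⟩ := Alt88.exists_finset_closure_eq_gamma0 N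
  let B : Finset (Module.Dual ℂ (CuspForm (CongruenceSubgroup.Gamma0 N) ((m : ℤ) + 2))) :=
    (s ×ˢ Finset.range (m + 1)).image fun x => periodCoeff N m x.1 x.2
  have hsub : ∀ g ∈ s, g ∈ CongruenceSubgroup.Gamma0 N := by
    intro g hg
    rw [← hs]
    exact Subgroup.subset_closure hg
  have hgen : ∀ g ∈ (s : Set SL(2, ℤ)), ∀ j,
      periodCoeff N m g j ∈ Submodule.span ℤ (B : Set (Module.Dual ℂ _)) := by
    intro g hg j
    rcases lt_or_ge j (m + 1) with hj | hj
    · apply Submodule.subset_span
      rw [Finset.mem_coe, Finset.mem_image]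
      exact ⟨(g, j), Finset.mem_product.2 ⟨hg, Finset.mem_range.2 hj⟩, rfl⟩
    · rw [periodCoeff_eq_zero_of_le g hj]
      exact Submodule.zero_mem _
  have heq : periodLattice N m = Submodule.span ℤ (B : Set (Module.Dual ℂ _)) := by
    apply le_antisymm
    · apply Submodule.span_le.2
      rintro lam ⟨γ, hγ, j, rfl⟩
      exact periodCoeff_mem_of_generators _ (s : Set SL(2, ℤ)) hs hgen hγ j
    · apply Submodule.span_le.2
      intro lam hlam
      rw [Finset.mem_coe, Finset.mem_image] at hlam
      obtain ⟨x, hx, rfl⟩ := hlam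
      exact periodCoeff_mem_periodLattice (hsub _ (Finset.mem_product.1 hx).1) _
  rw [heq]
  exact ⟨B, rfl⟩

theorem periodLattice_separates
    (f : CuspForm (CongruenceSubgroup.Gamma0 N) ((m : ℤ) + 2))
    (h : ∀ lam ∈ periodLattice N m, lam f = 0) : f = 0 := by
  apply eq_zero_of_periodPoly_eq_zero
  intro γ hγ
  ext j
  rw [Polynomial.coeff_zero, ← periodCoeff_apply]
  exact h _ (periodCoeff_mem_periodLattice hγ j)

/-- Stability of the period lattice under an operator whose period polynomials are integral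
combinations of transformed period polynomials. -/
theorem periodLattice_stable
    (T : Module.End ℂ (CuspForm (CongruenceSubgroup.Gamma0 N) ((m : ℤ) + 2)))
    (hT : ∀ γ ∈ CongruenceSubgroup.Gamma0 N,
      ∃ (n : ℕ) (g : Fin n → SL(2, ℤ)) (A : Fin n → Matrix (Fin 2) (Fin 2) ℤ),
        (∀ i, g i ∈ CongruenceSubgroup.Gamma0 N) ∧
        ∀ f : CuspForm (CongruenceSubgroup.Gamma0 N) ((m : ℤ) + 2),
          periodPoly (T f) γ = ∑ i, polyAct m (A i) (periodPoly f (g i))) :
    ∀ lam ∈ periodLattice N m, lam.comp T ∈ periodLattice N m := by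
  intro lam hlam
  induction hlam using Submodule.span_induction with
  | mem lam hlam =>
    obtain ⟨γ, hγ, j, rfl⟩ := hlam
    obtain ⟨n, g, A, hg, hf⟩ := hT γ hγ
    -- the summands
    have hsum : ∀ i : Fin n, ∃ mu ∈ periodLattice N m,
        ∀ f, mu f = (polyAct m (A i) (periodPoly f (g i))).coeff j := by
      intro i
      let mu : Module.Dual ℂ (CuspForm (CongruenceSubgroup.Gamma0 N) ((m : ℤ) + 2)) :=
        { toFun := fun f => (polyAct m (A i) (periodPoly f (g i))).coeff j
          map_add' := fun f f' => by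
            rw [periodPoly_add, polyAct_add, Polynomial.coeff_add]
          map_smul' := fun c f => by
            rw [periodPoly_smul, polyAct_smul, Polynomial.coeff_smul]; rfl }
      refine ⟨mu, ?_, fun f => rfl⟩
      exact mem_of_eq_coeff_polyAct _ (A i) (g i)
        (fun j' => periodCoeff_mem_periodLattice (hg i) j') j mu fun f => rfl
    choose mu hmu hmuf using hsum
    have : (periodCoeff N m γ j).comp T = ∑ i, mu i := by
      ext f
      rw [LinearMap.comp_apply, periodCoeff_apply, hf, Polynomial.finsetSum_coeff,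
        LinearMap.sum_apply]
      exact Finset.sum_congr rfl fun i _ => (hmuf i f).symm
    rw [this]
    exact Submodule.sum_mem _ fun i _ => hmu i
  | zero =>
    rw [LinearMap.zero_comp]
    exact Submodule.zero_mem _
  | add a b _ _ iha ihb =>
    rw [LinearMap.add_comp]
    exact Submodule.add_mem _ iha ihb
  | smul c a _ iha =>
    rw [LinearMap.smul_comp]
    exact Submodule.smul_mem _ c iha

end Lattice

theorem finite_heckeAlgebra_of_two_le (N : ℕ) [NeZero N] (m : ℕ) (S : Set ℕ) :
    Module.Finite ℤ (CuspForm.heckeAlgebra N ((m : ℤ) + 2) S) := by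
  refine Alt88.heckeAlgebra_finite_of_stable_lattice N ((m : ℤ) + 2) S (periodLattice N m)
    periodLattice_fg periodLattice_separates ?_ ?_
  · intro l hl hlN
    exact periodLattice_stable _ fun γ hγ => periodPoly_heckeT hl hlN hγ
  · intro q hqN _
    exact periodLattice_stable _ fun γ hγ => periodPoly_heckeU hqN hγ

end Fermat.Agent.S22
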