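-- S22 reduction: the Hecke algebra is a finite Z-module as soon as the integral lattice
-- spans the space of cusp forms (for weights k >= 1); weights k <= 0 are handled directly.
import Fermat.Statements.S22
import Fermat.Prelude.Thm_ModularForm_sturm_bound_Gamma0
import Fermat.Prelude.Thm_CuspForm_intLattice_fg
import Fermat.Prelude.Thm_CuspForm_mem_intLattice_of_mem_heckeAlgebra

set_option autoImplicit false
open CuspForm

namespace Fermat.Agent.S22

/-- Cusp forms of non-positive weight on `Gamma0 N` vanish (Sturm bound). -/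
theorem cuspForm_eq_zero_of_nonpos (N : ℕ) [NeZero N] (k : ℤ) (hk : k ≤ 0)
    (f : CuspForm (CongruenceSubgroup.Gamma0 N) k) : f = 0 := by
  have hper : (1 : ℝ) ∈ (Subgroup.map (Matrix.SpecialLinearGroup.mapGL ℝ)
      (CongruenceSubgroup.Gamma0 N)).strictPeriods := by
    simp [CongruenceSubgroup.strictPeriods_Gamma0]
  have hM : (f : ModularForm (CongruenceSubgroup.Gamma0 N) k) = 0 := by
    apply ModularForm.sturm_bound_Gamma0 N
    intro n hn
    have hle : k * ((CongruenceSubgroup.Gamma0 N).index : ℤ) ≤ 0 :=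
      mul_nonpos_of_nonpos_of_nonneg hk (Int.natCast_nonneg _)
    have h0 : (k * ((CongruenceSubgroup.Gamma0 N).index : ℤ)).toNat = 0 :=
      Int.toNat_eq_zero.2 hle
    have hn0 : n = 0 := by
      rw [h0] at hn
      simpa using hn
    subst hn0
    exact CuspFormClass.qExpansion_coeff_zero f one_pos hper
  ext z
  have := DFunLike.congr_fun hM z
  simpa using this

/-- For non-positive weight the Hecke algebra is a finite `ℤ`-module (it is the zero ring). -/
theorem heckeAlgebra_finite_of_nonpos (N : ℕ) [NeZero N] (k : ℤ) (hk : k ≤ 0) (S : Set ℕ) :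
    Module.Finite ℤ (CuspForm.heckeAlgebra N k S) := by
  have hsub : Subsingleton (CuspForm (CongruenceSubgroup.Gamma0 N) k) :=
    ⟨fun f g => by rw [cuspForm_eq_zero_of_nonpos N k hk f, cuspForm_eq_zero_of_nonpos N k hk g]⟩
  have hsubE : Subsingleton (Module.End ℂ (CuspForm (CongruenceSubgroup.Gamma0 N) k)) :=
    ⟨fun a b => LinearMap.ext fun x => Subsingleton.elim _ _⟩
  have : Subsingleton (CuspForm.heckeAlgebra N k S) :=
    ⟨fun a b => Subtype.ext (Subsingleton.elim _ _)⟩
  exact Module.Finite.of_finite

/-- Restriction of a Hecke algebra element to the integral lattice. -/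
noncomputable def restrictLattice (N : ℕ) [NeZero N] (k : ℤ) (hk : 1 ≤ k) (S : Set ℕ) :
    CuspForm.heckeAlgebra N k S →ₗ[ℤ] (CuspForm.intLattice N k →ₗ[ℤ] CuspForm.intLattice N k) where
  toFun t :=
    { toFun := fun f => ⟨(t : Module.End ℂ (CuspForm (CongruenceSubgroup.Gamma0 N) k)) f.1,
        CuspForm.mem_intLattice_of_mem_heckeAlgebra hk t.2 f.2⟩
      map_add' := fun f g => Subtype.ext (by simp)
      map_smul' := fun c f => Subtype.ext (by simp) }
  map_add' t t' := by
    apply LinearMap.ext
    intro f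
    apply Subtype.ext
    simp
  map_smul' c t := by
    apply LinearMap.ext
    intro f
    apply Subtype.ext
    simp

theorem restrictLattice_apply_coe (N : ℕ) [NeZero N] (k : ℤ) (hk : 1 ≤ k) (S : Set ℕ)
    (t : CuspForm.heckeAlgebra N k S) (f : CuspForm.intLattice N k) :
    ((restrictLattice N k hk S t f : CuspForm.intLattice N k) :
      CuspForm (CongruenceSubgroup.Gamma0 N) k) =
      (t : Module.End ℂ (CuspForm (CongruenceSubgroup.Gamma0 N) k)) f.1 := rfl

theorem restrictLattice_injective (N : ℕ) [NeZero N] (k : ℤ) (hk : 1 ≤ k) (S : Set ℕ)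
    (h : Submodule.span ℂ ((CuspForm.intLattice N k :
      Submodule ℤ (CuspForm (CongruenceSubgroup.Gamma0 N) k)) :
        Set (CuspForm (CongruenceSubgroup.Gamma0 N) k)) = ⊤) :
    Function.Injective (restrictLattice N k hk S) := by
  rw [← LinearMap.ker_eq_bot, LinearMap.ker_eq_bot']
  intro t ht
  apply Subtype.ext
  apply LinearMap.ext_on h
  intro f hf
  have := congrArg (fun φ => ((φ ⟨f, hf⟩ : CuspForm.intLattice N k) :
      CuspForm (CongruenceSubgroup.Gamma0 N) k)) ht
  simpa [restrictLattice_apply_coe] using this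

/-- The Hecke algebra is a finite `ℤ`-module provided the integral lattice spans the cusp forms
over `ℂ` (only needed for weights `k ≥ 1`). -/
theorem heckeAlgebra_finite_of_integralStructure (N : ℕ) [NeZero N] (k : ℤ) (S : Set ℕ)
    (h : 1 ≤ k → Submodule.span ℂ ((CuspForm.intLattice N k :
      Submodule ℤ (CuspForm (CongruenceSubgroup.Gamma0 N) k)) :
        Set (CuspForm (CongruenceSubgroup.Gamma0 N) k)) = ⊤) :
    Module.Finite ℤ (CuspForm.heckeAlgebra N k S) := by
  by_cases hk : 1 ≤ k
  · have : Module.Finite ℤ (CuspForm.intLattice N k) :=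
      Module.Finite.iff_fg.2 (CuspForm.intLattice_fg N k)
    exact Module.Finite.of_injective (restrictLattice N k hk S)
      (restrictLattice_injective N k hk S (h hk))
  · exact heckeAlgebra_finite_of_nonpos N k (by omega) S

/-- Cusp forms of odd weight on `Gamma0 N` vanish, because `-1` lies in `Gamma0 N`. -/
theorem cuspForm_eq_zero_of_odd (N : ℕ) (k : ℤ) (hk : Odd k)
    (f : CuspForm (CongruenceSubgroup.Gamma0 N) k) : f = 0 := by
  have hneg : (-1 : GL (Fin 2) ℝ) ∈ (Subgroup.map (Matrix.SpecialLinearGroup.mapGL ℝ)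
      (CongruenceSubgroup.Gamma0 N)) := by
    have h1 : (-1 : Matrix.SpecialLinearGroup (Fin 2) ℤ) ∈ CongruenceSubgroup.Gamma0 N := by
      rw [CongruenceSubgroup.Gamma0_mem]
      simp
    exact ⟨-1, h1, by ext; simp⟩
  have hM : (f : ModularForm (CongruenceSubgroup.Gamma0 N) k) = 0 :=
    ModularForm.eq_zero_of_neg_one_mem hneg hk _
  ext z
  have := DFunLike.congr_fun hM z
  simpa using this

/-- The integral lattice spans trivially when the weight is odd. -/
theorem span_intLattice_eq_top_of_odd (N : ℕ) (k : ℤ) (hk : Odd k) :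
    Submodule.span ℂ ((CuspForm.intLattice N k :
      Submodule ℤ (CuspForm (CongruenceSubgroup.Gamma0 N) k)) :
        Set (CuspForm (CongruenceSubgroup.Gamma0 N) k)) = ⊤ := by
  rw [eq_top_iff]
  intro f _
  rw [cuspForm_eq_zero_of_odd N k hk f]
  exact Submodule.zero_mem _

/-- Final form of the reduction: it suffices to know the integral structure in even
weights `k ≥ 2`. -/
theorem heckeAlgebra_finite_of_integralStructure_even (N : ℕ) [NeZero N] (k : ℤ) (S : Set ℕ)
    (h : 2 ≤ k → Even k → Submodule.span ℂ ((CuspForm.intLattice N k :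
      Submodule ℤ (CuspForm (CongruenceSubgroup.Gamma0 N) k)) :
        Set (CuspForm (CongruenceSubgroup.Gamma0 N) k)) = ⊤) :
    Module.Finite ℤ (CuspForm.heckeAlgebra N k S) := by
  apply heckeAlgebra_finite_of_integralStructure
  intro hk
  rcases Int.even_or_odd k with he | ho
  · refine h ?_ he
    rcases he with ⟨r, hr⟩
    omega
  · exact span_intLattice_eq_top_of_odd N k ho

end Fermat.Agent.S22
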