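import Mathlib
import Fermat.Prelude.Def_CuspForm_HeckeAlgebra
import Fermat.Prelude.Thm_ModularForm_sturm_bound_Gamma0
import Fermat.Agent.S22.Reduction

/-!
# Weights `≤ 1`: there are no cusp forms on `Γ₀(N)` (work package H of the S22 project)
-/

open UpperHalfPlane
open scoped ModularForm MatrixGroups

namespace Fermat.Agent.S22

theorem cuspForm_eq_zero_of_le_one (N : ℕ) [NeZero N] {k : ℤ} (hk : k ≤ 1)
    (f : CuspForm (CongruenceSubgroup.Gamma0 N) k) : f = 0 := by
  rcases lt_or_eq_of_le hk with h | h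
  · exact cuspForm_eq_zero_of_nonpos N k (by omega) f
  · exact cuspForm_eq_zero_of_odd N k (by rw [h]; exact odd_one) f

theorem finite_heckeAlgebra_of_le_one (N : ℕ) [NeZero N] {k : ℤ} (hk : k ≤ 1) (S : Set ℕ) :
    Module.Finite ℤ (CuspForm.heckeAlgebra N k S) := by
  have hsub : Subsingleton (CuspForm (CongruenceSubgroup.Gamma0 N) k) :=
    ⟨fun f g => by rw [cuspForm_eq_zero_of_le_one N hk f, cuspForm_eq_zero_of_le_one N hk g]⟩
  have hsubE : Subsingleton (Module.End ℂ (CuspForm (CongruenceSubgroup.Gamma0 N) k)) :=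
    ⟨fun a b => LinearMap.ext fun x => Subsingleton.elim _ _⟩
  have : Subsingleton (CuspForm.heckeAlgebra N k S) :=
    ⟨fun a b => Subtype.ext (Subsingleton.elim _ _)⟩
  exact Module.Finite.of_finite

end Fermat.Agent.S22
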