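-- S22, light route: the Hecke algebra is a finite Z-module as soon as the q-expansions of all
-- cusp forms lie in the complex span of finitely many sequences with values in a finitely
-- generated subgroup of the complex numbers.
import Fermat.Statements.S22
import Fermat.Prelude.Thm_ModularFormClass_qCoeff_heckeT
import Fermat.Prelude.Thm_ModularFormClass_qCoeff_heckeU
import Fermat.Prelude.Thm_CongruenceSubgroup_one_mem_strictPeriods_Gamma0
import Fermat.Agent.S22.DualLattice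

set_option autoImplicit false

open CuspForm ModularFormClass UpperHalfPlane

namespace Fermat.Agent.S22

local notation "Γ₀(" N ")" => CongruenceSubgroup.Gamma0 N

theorem hΓ0 (N : ℕ) :
    (1 : ℝ) ∈ (Subgroup.map (Matrix.SpecialLinearGroup.mapGL ℝ) Γ₀(N)).strictPeriods :=
  CongruenceSubgroup.one_mem_strictPeriods_Gamma0 N

/-- The `n`-th `q`-coefficient as a linear functional on cusp forms. -/
noncomputable def qCoeffLin (N : ℕ) (k : ℤ) (n : ℕ) : CuspForm Γ₀(N) k →ₗ[ℂ] ℂ where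
  toFun f := qCoeff f n
  map_add' f g := by
    simp only [qCoeff, FunLike.coe_add]
    rw [ModularForm.qExpansion_add one_pos (hΓ0 N) f g, map_add]
  map_smul' c f := by
    have h1 : ⇑(c • f) = c • ⇑f := by
      ext z
      simp
    simp only [qCoeff, h1, RingHom.id_apply]
    rw [ModularForm.qExpansion_smul one_pos (hΓ0 N) c f]
    simp

@[simp] theorem qCoeffLin_apply (N : ℕ) (k : ℤ) (n : ℕ) (f : CuspForm Γ₀(N) k) :
    qCoeffLin N k n f = qCoeff f n := rfl

/-- The lattice of functionals spanned by the `q`-coefficients. -/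
noncomputable def coeffLattice (N : ℕ) (k : ℤ) : Submodule ℤ (CuspForm Γ₀(N) k →ₗ[ℂ] ℂ) :=
  Submodule.span ℤ (Set.range (qCoeffLin N k))

theorem coeffLattice_separates (N : ℕ) (k : ℤ) (f : CuspForm Γ₀(N) k)
    (h : ∀ φ ∈ coeffLattice N k, φ f = 0) : f = 0 := by
  have hq : qExpansion 1 f = 0 := by
    ext n
    have := h (qCoeffLin N k n) (Submodule.subset_span ⟨n, rfl⟩)
    simpa [qCoeff] using this
  have hf : (f : ℍ → ℂ) = 0 := by
    have : Fact (IsCusp OnePoint.infty
        (Subgroup.map (Matrix.SpecialLinearGroup.mapGL ℝ) Γ₀(N))) :=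
      ⟨Subgroup.isCusp_of_mem_strictPeriods one_pos (hΓ0 N)⟩
    exact (qExpansion_eq_zero_iff one_pos
      (SlashInvariantFormClass.periodic_comp_ofComplex f (hΓ0 N)) (ModularFormClass.holo f)
      (ModularFormClass.bdd_at_infty f)).1 hq
  exact DFunLike.coe_injective (hf.trans FunLike.coe_zero.symm)

theorem natCast_zpow_mem_int {k : ℤ} (hk : 1 ≤ k) (p : ℕ) :
    ∃ m : ℤ, ((p : ℂ) ^ (k - 1)) = (m : ℂ) := by
  obtain ⟨r, hr⟩ : ∃ r : ℕ, k - 1 = (r : ℤ) := ⟨(k - 1).toNat, by omega⟩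
  refine ⟨(p : ℤ) ^ r, ?_⟩
  rw [hr, zpow_natCast]
  push_cast
  rfl

theorem qCoeffLin_comp_heckeT_mem (N : ℕ) {k : ℤ} (hk : 1 ≤ k) {p : ℕ} (hp : p.Prime)
    (hpN : ¬ p ∣ N) (n : ℕ) :
    qCoeffLin N k n ∘ₗ heckeTLin k hp hpN ∈ coeffLattice N k := by
  obtain ⟨m, hm⟩ := natCast_zpow_mem_int hk p
  have key : qCoeffLin N k n ∘ₗ heckeTLin k hp hpN =
      qCoeffLin N k (n * p) + (if p ∣ n then m • qCoeffLin N k (n / p) else 0) := by
    apply LinearMap.ext
    intro f
    have := ModularFormClass.qCoeff_heckeT f (hΓ0 N) hp.ne_zero n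
    simp only [LinearMap.comp_apply, qCoeffLin_apply, coe_heckeTLin_apply, LinearMap.add_apply]
    rw [this, ModularForm.coeffHeckeT_apply, hm]
    split_ifs <;> simp
  rw [key]
  refine Submodule.add_mem _ (Submodule.subset_span ⟨_, rfl⟩) ?_
  split_ifs
  · exact Submodule.smul_mem _ _ (Submodule.subset_span ⟨_, rfl⟩)
  · exact Submodule.zero_mem _

theorem qCoeffLin_comp_heckeU_mem (N : ℕ) [NeZero N] {k : ℤ} {p : ℕ} (hp : p.Prime)
    (hpN : p ∣ N) (n : ℕ) :
    qCoeffLin N k n ∘ₗ heckeULin k hpN ∈ coeffLattice N k := by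
  have key : qCoeffLin N k n ∘ₗ heckeULin k hpN = qCoeffLin N k (n * p) := by
    apply LinearMap.ext
    intro f
    have := ModularFormClass.qCoeff_heckeU (k := k) f (hΓ0 N) hp.ne_zero n
    simp only [LinearMap.comp_apply, qCoeffLin_apply, coe_heckeULin_apply]
    rw [this, ModularForm.coeffHeckeU_apply]
  rw [key]
  exact Submodule.subset_span ⟨_, rfl⟩

theorem comp_mem_coeffLattice_of_generators (N : ℕ) {k : ℤ}
    (t : Module.End ℂ (CuspForm Γ₀(N) k))
    (ht : ∀ n, qCoeffLin N k n ∘ₗ t ∈ coeffLattice N k) :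
    ∀ φ ∈ coeffLattice N k, φ ∘ₗ t ∈ coeffLattice N k := by
  intro φ hφ
  induction hφ using Submodule.span_induction with
  | mem ψ hψ =>
    obtain ⟨n, rfl⟩ := hψ
    exact ht n
  | zero => simp
  | add x y _ _ hx hy =>
    rw [LinearMap.add_comp]
    exact Submodule.add_mem _ hx hy
  | smul c x _ hx =>
    rw [LinearMap.smul_comp]
    exact Submodule.smul_mem _ c hx

/-- The Hecke algebra is finite over `ℤ` once the coefficient lattice is finitely generated. -/
theorem heckeAlgebra_finite_of_coeffLattice_fg (N : ℕ) [NeZero N] (k : ℤ) (hk : 1 ≤ k)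
    (S : Set ℕ) (hfg : (coeffLattice N k).FG) :
    Module.Finite ℤ (CuspForm.heckeAlgebra N k S) := by
  refine finite_adjoin_of_stable (coeffLattice N k) hfg (coeffLattice_separates N k)
    (CuspForm.heckeGenerators N k S) ?_
  rintro t (⟨ℓ, hℓ, hℓN, -, rfl⟩ | ⟨q, hqN, hq, -, rfl⟩)
  · exact comp_mem_coeffLattice_of_generators N _ (qCoeffLin_comp_heckeT_mem N hk hℓ hℓN)
  · exact comp_mem_coeffLattice_of_generators N _ (qCoeffLin_comp_heckeU_mem N hq hqN)

/-- Main criterion: containment of all `q`-expansions in the span of finitely many sequences with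
values in a finitely generated subgroup of `ℂ`. -/
theorem heckeAlgebra_finite_of_qExp_contained (N : ℕ) [NeZero N] (k : ℤ) (hk : 1 ≤ k)
    (S : Set ℕ) {ι : Type*} [Fintype ι] (M : Submodule ℤ ℂ) (hM : M.FG) (g : ι → ℕ → ℂ)
    (hg : ∀ i n, g i n ∈ M)
    (h : ∀ f : CuspForm Γ₀(N) k, ∃ c : ι → ℂ, ∀ n, qCoeff f n = ∑ i, c i * g i n) :
    Module.Finite ℤ (CuspForm.heckeAlgebra N k S) := by
  apply heckeAlgebra_finite_of_coeffLattice_fg N k hk S
  let A : CuspForm Γ₀(N) k →ₗ[ℂ] (ℕ → ℂ) := LinearMap.pi fun n => qCoeffLin N k n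
  let Φ : (ι → ℂ) →ₗ[ℂ] (ℕ → ℂ) :=
    LinearMap.pi fun n => ∑ i, g i n • (LinearMap.proj i : (ι → ℂ) →ₗ[ℂ] ℂ)
  have hΦ : ∀ c n, Φ c n = ∑ i, c i * g i n := by
    intro c n
    simp [Φ, mul_comm]
  obtain ⟨L, hL⟩ := exists_linear_factor A Φ (fun f => by
    obtain ⟨c, hc⟩ := h f
    refine ⟨c, ?_⟩
    funext n
    rw [hΦ]
    exact hc n)
  refine span_range_fg_of_factor (qCoeffLin N k) M hM g hg L ?_
  intro f n
  have := congrFun (congrArg (fun F => F f) hL) n
  simpa [A, hΦ] using this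

end Fermat.Agent.S22
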