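-- S22, light route: periodic holomorphic bounded functions on the upper half plane and
-- their q-expansions (ring-hom properties in the form needed for the assembly).
import Mathlib
import Fermat.Prelude.Thm_UpperHalfPlane_qExpansion_coeff_nat_mul

set_option autoImplicit false

open UpperHalfPlane
open scoped Manifold

namespace Fermat.Agent.S22

/-- `F` is `h`-periodic, holomorphic and bounded at `i∞`. -/
def IsPer (h : ℝ) (F : ℍ → ℂ) : Prop :=
  Function.Periodic (F ∘ ofComplex) h ∧ MDiff F ∧ IsBoundedAtImInfty F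

namespace IsPer

variable {h : ℝ} {F G : ℍ → ℂ}

theorem analyticAt (hh : 0 < h) (hF : IsPer h F) : AnalyticAt ℂ (cuspFunction h F) 0 :=
  analyticAt_cuspFunction_zero hh hF.1 hF.2.1 hF.2.2

theorem add (hF : IsPer h F) (hG : IsPer h G) : IsPer h (F + G) := by
  refine ⟨?_, hF.2.1.add hG.2.1, hF.2.2.add hG.2.2⟩
  intro x
  have h1 := hF.1 x
  have h2 := hG.1 x
  simp only [Function.comp_apply, Pi.add_apply] at h1 h2 ⊢
  rw [h1, h2]

theorem mul (hF : IsPer h F) (hG : IsPer h G) : IsPer h (F * G) := by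
  refine ⟨?_, hF.2.1.mul hG.2.1, hF.2.2.mul hG.2.2⟩
  intro x
  have h1 := hF.1 x
  have h2 := hG.1 x
  simp only [Function.comp_apply, Pi.mul_apply] at h1 h2 ⊢
  rw [h1, h2]

theorem neg (hF : IsPer h F) : IsPer h (-F) := by
  refine ⟨?_, hF.2.1.neg, hF.2.2.neg⟩
  intro x
  have h1 := hF.1 x
  simp only [Function.comp_apply, Pi.neg_apply] at h1 ⊢
  rw [h1]

theorem sub (hF : IsPer h F) (hG : IsPer h G) : IsPer h (F - G) := by
  rw [sub_eq_add_neg]
  exact hF.add hG.neg

theorem const (c : ℂ) : IsPer h (fun _ => c) := by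
  refine ⟨fun x => rfl, mdifferentiable_const, ?_⟩
  exact Filter.const_boundedAtFilter _ c

theorem one : IsPer h (1 : ℍ → ℂ) := const 1

theorem zero : IsPer h (0 : ℍ → ℂ) := const 0

theorem smul (c : ℂ) (hF : IsPer h F) : IsPer h (c • F) := by
  have : c • F = (fun _ => c) * F := by
    ext z
    simp
  rw [this]
  exact (const c).mul hF

theorem pow (hF : IsPer h F) (n : ℕ) : IsPer h (F ^ n) := by
  induction n with
  | zero => simpa using (one : IsPer h (1 : ℍ → ℂ))
  | succ n ih =>
    rw [pow_succ]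
    exact ih.mul hF

theorem sum {ι : Type*} (s : Finset ι) {F : ι → ℍ → ℂ} (hF : ∀ i ∈ s, IsPer h (F i)) :
    IsPer h (∑ i ∈ s, F i) := by
  classical
  induction s using Finset.induction_on with
  | empty => simpa using (zero : IsPer h (0 : ℍ → ℂ))
  | insert a s ha ih =>
    rw [Finset.sum_insert ha]
    exact (hF a (Finset.mem_insert_self a s)).add
      (ih fun i hi => hF i (Finset.mem_insert_of_mem hi))

theorem prod {ι : Type*} (s : Finset ι) {F : ι → ℍ → ℂ} (hF : ∀ i ∈ s, IsPer h (F i)) :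
    IsPer h (∏ i ∈ s, F i) := by
  classical
  induction s using Finset.induction_on with
  | empty => simpa using (one : IsPer h (1 : ℍ → ℂ))
  | insert a s ha ih =>
    rw [Finset.prod_insert ha]
    exact (hF a (Finset.mem_insert_self a s)).mul
      (ih fun i hi => hF i (Finset.mem_insert_of_mem hi))

/-- A `1`-periodic function is `N`-periodic. -/
theorem of_one {N : ℕ} (hF : IsPer 1 F) : IsPer (N : ℝ) F := by
  refine ⟨?_, hF.2.1, hF.2.2⟩
  have := hF.1.nat_mul N
  simpa using this

end IsPer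

theorem qExpansion_add_of_isPer {h : ℝ} (hh : 0 < h) {F G : ℍ → ℂ} (hF : IsPer h F)
    (hG : IsPer h G) : qExpansion h (F + G) = qExpansion h F + qExpansion h G :=
  qExpansion_add (hF.analyticAt hh) (hG.analyticAt hh)

theorem qExpansion_mul_of_isPer {h : ℝ} (hh : 0 < h) {F G : ℍ → ℂ} (hF : IsPer h F)
    (hG : IsPer h G) : qExpansion h (F * G) = qExpansion h F * qExpansion h G :=
  qExpansion_mul (hF.analyticAt hh) (hG.analyticAt hh)

theorem qExpansion_smul_of_isPer {h : ℝ} (hh : 0 < h) {F : ℍ → ℂ} (c : ℂ) (hF : IsPer h F) :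
    qExpansion h (c • F) = c • qExpansion h F :=
  qExpansion_smul (hF.analyticAt hh) c

theorem qExpansion_pow_of_isPer {h : ℝ} (hh : 0 < h) {F : ℍ → ℂ} (hF : IsPer h F) (n : ℕ) :
    qExpansion h (F ^ n) = qExpansion h F ^ n := by
  induction n with
  | zero => simpa using qExpansion_one h
  | succ n ih =>
    rw [pow_succ, pow_succ, qExpansion_mul_of_isPer hh (hF.pow n) hF, ih]

theorem qExpansion_sum_of_isPer {h : ℝ} (hh : 0 < h) {ι : Type*} (s : Finset ι)
    {F : ι → ℍ → ℂ} (hF : ∀ i ∈ s, IsPer h (F i)) :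
    qExpansion h (∑ i ∈ s, F i) = ∑ i ∈ s, qExpansion h (F i) := by
  classical
  induction s using Finset.induction_on with
  | empty => simpa using qExpansion_zero h
  | insert a s ha ih =>
    rw [Finset.sum_insert ha, Finset.sum_insert ha,
      qExpansion_add_of_isPer hh (hF a (Finset.mem_insert_self a s))
        (IsPer.sum s fun i hi => hF i (Finset.mem_insert_of_mem hi)),
      ih fun i hi => hF i (Finset.mem_insert_of_mem hi)]

/-- Coefficients of the `q_N`-expansion of a `1`-periodic function. -/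
theorem qExpansion_nat_coeff {F : ℍ → ℂ} (hF : IsPer 1 F) {N : ℕ} (hN : 0 < N) (n : ℕ) :
    (qExpansion (N : ℝ) F).coeff n = if N ∣ n then (qExpansion 1 F).coeff (n / N) else 0 := by
  have := UpperHalfPlane.qExpansion_coeff_nat_mul (h := 1) one_pos hF.1 hF.2.1 hF.2.2 hN n
  simpa using this

theorem qExpansion_nat_coeff_mul {F : ℍ → ℂ} (hF : IsPer 1 F) {N : ℕ} (hN : 0 < N) (n : ℕ) :
    (qExpansion (N : ℝ) F).coeff (N * n) = (qExpansion 1 F).coeff n := by
  rw [qExpansion_nat_coeff hF hN, if_pos (dvd_mul_right N n), Nat.mul_div_cancel_left n hN]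

end Fermat.Agent.S22
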