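-- S22, light route: from a Lagrange-type identity with level-one coefficients to the
-- containment of q-expansions in the span of finitely many series over a fixed subring.
import Fermat.Agent.S22.PerFun
import Fermat.Agent.S22.HeckeDual
import Fermat.Agent.S23.IntSeries

set_option autoImplicit false

open UpperHalfPlane ModularForm
open scoped MatrixGroups Manifold
open Fermat.Agent.S23.IntSeries

namespace Fermat.Agent.S22

local notation "Γ₀(" N ")" => CongruenceSubgroup.Gamma0 N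

/-- Level-one modular forms are `1`-periodic, holomorphic and bounded. -/
theorem isPer_levelOne {w : ℤ} (e : ModularForm 𝒮ℒ w) : IsPer 1 (e : ℍ → ℂ) :=
  ⟨SlashInvariantFormClass.periodic_comp_ofComplex e one_mem_strictPeriods_SL,
    ModularFormClass.holo e, ModularFormClass.bdd_at_infty e⟩

/-- Cusp forms on `Gamma0 N` are `1`-periodic, holomorphic and bounded. -/
theorem isPer_cuspForm {N : ℕ} {k : ℤ} (f : CuspForm Γ₀(N) k) : IsPer 1 (f : ℍ → ℂ) := by
  have : Fact (IsCusp OnePoint.infty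
      (Subgroup.map (Matrix.SpecialLinearGroup.mapGL ℝ) Γ₀(N))) :=
    ⟨Subgroup.isCusp_of_mem_strictPeriods one_pos (hΓ0 N)⟩
  exact ⟨SlashInvariantFormClass.periodic_comp_ofComplex f (hΓ0 N),
    ModularFormClass.holo f, ModularFormClass.bdd_at_infty f⟩

/-- The `q_N`-expansion of a `1`-periodic function with coefficients in `R` has
coefficients in `R`. -/
theorem qExpansion_nat_mem_coeffSubring {R : Subring ℂ} {F : ℍ → ℂ} (hF : IsPer 1 F)
    (hFR : qExpansion 1 F ∈ coeffSubring R) {N : ℕ} (hN : 0 < N) :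
    qExpansion (N : ℝ) F ∈ coeffSubring R := by
  intro n
  rw [qExpansion_nat_coeff hF hN]
  split_ifs
  · exact hFR _
  · exact R.zero_mem

theorem qExp_contained_of_lagrange {N : ℕ} [NeZero N] {k : ℤ} (R : Subring ℂ)
    (t D : ℍ → ℂ) (ht : IsPer 1 t) (hD : IsPer (N : ℝ) D)
    (htq : qExpansion 1 t ∈ coeffSubring R)
    (hDq : qExpansion (N : ℝ) D ∈ coeffSubring R)
    (hD0 : PowerSeries.constantCoeff (qExpansion (N : ℝ) D) = 1)
    {μ : ℕ} (w : Fin μ → ℤ)
    (hlev : ∀ m, ∃ s : Finset (ModularForm 𝒮ℒ (w m)),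
      (∀ e ∈ s, qExpansion 1 e ∈ coeffSubring R) ∧
        Submodule.span ℂ (s : Set (ModularForm 𝒮ℒ (w m))) = ⊤)
    (hid : ∀ f : CuspForm Γ₀(N) k, ∃ c : (m : Fin μ) → ModularForm 𝒮ℒ (w m),
      ∀ z, f z * D z = ∑ m, c m z * t z ^ (m : ℕ)) :
    ∃ (ι : Type) (_ : Fintype ι) (g : ι → ℕ → ℂ), (∀ i n, g i n ∈ R) ∧
      ∀ f : CuspForm Γ₀(N) k, ∃ c : ι → ℂ,
        ∀ n, ModularFormClass.qCoeff f n = ∑ i, c i * g i n := by
  classical
  have hN : 0 < N := NeZero.pos N
  have hNR : (0 : ℝ) < (N : ℝ) := by exact_mod_cast hN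
  choose s hsR hspan using hlev
  obtain ⟨E, hE, hDE, hED⟩ := exists_inverse_mem_coeffSubring hDq hD0
  let ι := (m : Fin μ) × (s m)
  let G : ι → PowerSeries ℂ := fun i =>
    E * (qExpansion (N : ℝ) (i.2.1 : ModularForm 𝒮ℒ (w i.1)) * qExpansion (N : ℝ) t ^ (i.1 : ℕ))
  have hG : ∀ i, G i ∈ coeffSubring R := by
    intro i
    refine (coeffSubring R).mul_mem hE ((coeffSubring R).mul_mem ?_ ?_)
    · exact qExpansion_nat_mem_coeffSubring (isPer_levelOne _) (hsR i.1 _ i.2.2) hN
    · exact (coeffSubring R).pow_mem (qExpansion_nat_mem_coeffSubring ht htq hN) _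
  refine ⟨ι, inferInstance, fun i n => PowerSeries.coeff (N * n) (G i), fun i n => hG i _, ?_⟩
  intro f
  obtain ⟨c, hc⟩ := hid f
  -- coordinates of the level-one coefficients
  have hcoord : ∀ m, ∃ lam : (s m) → ℂ, ∑ e : s m, lam e • (e.1 : ModularForm 𝒮ℒ (w m)) = c m := by
    intro m
    have : c m ∈ Submodule.span ℂ (s m : Set (ModularForm 𝒮ℒ (w m))) := by
      rw [hspan m]
      exact Submodule.mem_top
    exact Submodule.mem_span_finset'.1 this
  choose lam hlam using hcoord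
  refine ⟨fun i => lam i.1 i.2, ?_⟩
  -- the identity of functions
  have hfun : (f : ℍ → ℂ) * D =
      ∑ m : Fin μ, (∑ e : s m, lam m e • ((e.1 : ModularForm 𝒮ℒ (w m)) : ℍ → ℂ)) * t ^ (m : ℕ) := by
    funext z
    rw [Pi.mul_apply, hc z, Finset.sum_apply]
    refine Finset.sum_congr rfl fun m _ => ?_
    rw [Pi.mul_apply, Pi.pow_apply, ← hlam m]
    congr 1
    simp [Finset.sum_apply]
  have hfN : IsPer (N : ℝ) (f : ℍ → ℂ) := (isPer_cuspForm f).of_one
  have htN : IsPer (N : ℝ) t := ht.of_one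
  have heN : ∀ m (e : s m), IsPer (N : ℝ) ((e.1 : ModularForm 𝒮ℒ (w m)) : ℍ → ℂ) :=
    fun m e => (isPer_levelOne _).of_one
  have hq := congrArg (qExpansion (N : ℝ)) hfun
  rw [qExpansion_mul_of_isPer hNR hfN hD, qExpansion_sum_of_isPer hNR] at hq
  swap
  · intro m _
    exact (IsPer.sum _ fun e _ => (heN m e).smul _).mul (htN.pow _)
  have hq2 : qExpansion (N : ℝ) (f : ℍ → ℂ) =
      ∑ m : Fin μ, ∑ e : s m, lam m e • G ⟨m, e⟩ := by
    calc qExpansion (N : ℝ) (f : ℍ → ℂ)
        = (qExpansion (N : ℝ) (f : ℍ → ℂ) * qExpansion (N : ℝ) D) * E := by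
          rw [mul_assoc, hDE, mul_one]
      _ = _ := by
          rw [hq, Finset.sum_mul]
          refine Finset.sum_congr rfl fun m _ => ?_
          rw [qExpansion_mul_of_isPer hNR
            (IsPer.sum _ fun e _ => (heN m e).smul _) (htN.pow _),
            qExpansion_sum_of_isPer hNR _ (fun e _ => (heN m e).smul _),
            qExpansion_pow_of_isPer hNR htN, Finset.sum_mul, Finset.sum_mul]
          refine Finset.sum_congr rfl fun e _ => ?_
          rw [qExpansion_smul_of_isPer hNR _ (heN m e)]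
          simp only [G, smul_mul_assoc]
          ring_nf
  intro n
  have h1 : ModularFormClass.qCoeff f n = PowerSeries.coeff (N * n) (qExpansion (N : ℝ) (f : ℍ → ℂ)) := by
    rw [qExpansion_nat_coeff_mul (isPer_cuspForm f) hN]
    rfl
  rw [h1, hq2, Fintype.sum_sigma]
  simp only [map_sum, PowerSeries.coeff_smul]
  rfl

end Fermat.Agent.S22
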