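-- S22, light route: abstract algebra.  A commutative (or not) family of operators on a complex
-- vector space which stabilises a finitely generated separating lattice of functionals
-- generates a finite Z-algebra.
import Mathlib

set_option autoImplicit false

namespace Fermat.Agent.S22

section Abstract

variable {V : Type*} [AddCommGroup V] [Module ℂ V]

/-- The operators whose transpose preserves a lattice of functionals form a subalgebra. -/
def stabSubalgebra (Λ : Submodule ℤ (V →ₗ[ℂ] ℂ)) : Subalgebra ℤ (Module.End ℂ V) where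
  carrier := {t | ∀ φ ∈ Λ, φ ∘ₗ t ∈ Λ}
  mul_mem' := by
    intro s t hs ht φ hφ
    have : φ ∘ₗ (s * t) = (φ ∘ₗ s) ∘ₗ t := rfl
    rw [this]
    exact ht _ (hs _ hφ)
  add_mem' := by
    intro s t hs ht φ hφ
    rw [LinearMap.comp_add]
    exact Λ.add_mem (hs _ hφ) (ht _ hφ)
  algebraMap_mem' := by
    intro n φ hφ
    have : φ ∘ₗ (algebraMap ℤ (Module.End ℂ V) n) = n • φ := by
      ext v
      simp
    rw [this]
    exact Λ.smul_mem n hφ

theorem mem_stabSubalgebra {Λ : Submodule ℤ (V →ₗ[ℂ] ℂ)} {t : Module.End ℂ V} :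
    t ∈ stabSubalgebra Λ ↔ ∀ φ ∈ Λ, φ ∘ₗ t ∈ Λ := Iff.rfl

/-- Transpose action of the stabiliser on a finite generating family of the lattice. -/
noncomputable def stabToPi (Λ : Submodule ℤ (V →ₗ[ℂ] ℂ)) (s : Finset (V →ₗ[ℂ] ℂ))
    (hs : ∀ φ ∈ s, φ ∈ Λ) : stabSubalgebra Λ →ₗ[ℤ] (s → Λ) where
  toFun t φ := ⟨(φ : V →ₗ[ℂ] ℂ) ∘ₗ (t : Module.End ℂ V), t.2 _ (hs _ φ.2)⟩
  map_add' t t' := by
    funext φ
    apply Subtype.ext
    simp [LinearMap.comp_add]
  map_smul' c t := by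
    funext φ
    apply Subtype.ext
    apply LinearMap.ext
    intro v
    simp

theorem stabToPi_injective (Λ : Submodule ℤ (V →ₗ[ℂ] ℂ)) (s : Finset (V →ₗ[ℂ] ℂ))
    (hs : Submodule.span ℤ (s : Set (V →ₗ[ℂ] ℂ)) = Λ)
    (hsep : ∀ f : V, (∀ φ ∈ Λ, φ f = 0) → f = 0) :
    Function.Injective (stabToPi Λ s (fun _ hφ => hs ▸ Submodule.subset_span hφ)) := by
  rw [← LinearMap.ker_eq_bot, LinearMap.ker_eq_bot']
  intro t ht
  apply Subtype.ext
  apply LinearMap.ext
  intro f
  apply hsep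
  intro φ hφ
  rw [← hs] at hφ
  change φ ((t : Module.End ℂ V) f) = 0
  induction hφ using Submodule.span_induction with
  | mem ψ hψ =>
    have := congrArg (fun F => ((F ⟨ψ, hψ⟩ : Λ) : V →ₗ[ℂ] ℂ) f) ht
    simpa [stabToPi] using this
  | zero => simp
  | add x y _ _ hx hy => simp [hx, hy]
  | smul c x _ hx => simp [hx]

/-- Main abstract criterion. -/
theorem finite_adjoin_of_stable (Λ : Submodule ℤ (V →ₗ[ℂ] ℂ)) (hΛ : Λ.FG)
    (hsep : ∀ f : V, (∀ φ ∈ Λ, φ f = 0) → f = 0)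
    (G : Set (Module.End ℂ V)) (hG : ∀ t ∈ G, ∀ φ ∈ Λ, φ ∘ₗ t ∈ Λ) :
    Module.Finite ℤ (Algebra.adjoin ℤ G) := by
  obtain ⟨s, hs⟩ := hΛ
  have hle : Algebra.adjoin ℤ G ≤ stabSubalgebra Λ := Algebra.adjoin_le fun t ht => hG t ht
  have : Module.Finite ℤ Λ := Module.Finite.iff_fg.2 ⟨s, hs⟩
  have h1 : Module.Finite ℤ (stabSubalgebra Λ) :=
    Module.Finite.of_injective _ (stabToPi_injective Λ s hs hsep)
  exact Module.Finite.of_injective (Subalgebra.inclusion hle).toLinearMap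
    (Subalgebra.inclusion_injective hle)

/-- If the functionals `a n` factor through finitely many coordinates with coefficients in a
finitely generated subgroup of `ℂ`, then they span a finitely generated lattice. -/
theorem span_range_fg_of_factor (a : ℕ → V →ₗ[ℂ] ℂ) {ι : Type*} [Fintype ι]
    (M : Submodule ℤ ℂ) (hM : M.FG) (g : ι → ℕ → ℂ) (hg : ∀ i n, g i n ∈ M)
    (L : V →ₗ[ℂ] (ι → ℂ)) (h : ∀ f n, a n f = ∑ i, L f i * g i n) :
    (Submodule.span ℤ (Set.range a)).FG := by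
  classical
  obtain ⟨SM, hSM⟩ := hM
  let φ : ι → (V →ₗ[ℂ] ℂ) := fun i => LinearMap.proj i ∘ₗ L
  let gen : Finset (V →ₗ[ℂ] ℂ) :=
    (SM ×ˢ (Finset.univ : Finset ι)).image fun p => p.1 • φ p.2
  have hΞ : (Submodule.span ℤ (gen : Set (V →ₗ[ℂ] ℂ))).FG := Submodule.fg_span gen.finite_toSet
  refine hΞ.of_le ?_
  rw [Submodule.span_le]
  rintro _ ⟨n, rfl⟩
  have han : a n = ∑ i, g i n • φ i := by
    apply LinearMap.ext
    intro f
    rw [h f n]
    simp [φ, mul_comm]
  rw [han]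
  refine Submodule.sum_mem _ fun i _ => ?_
  -- the map `x ↦ x • φ i` is additive
  let m : ℂ →ₗ[ℤ] (V →ₗ[ℂ] ℂ) :=
    { toFun := fun x => x • φ i
      map_add' := fun x y => add_smul x y (φ i)
      map_smul' := fun c x => by
        apply LinearMap.ext
        intro v
        simp [mul_assoc] }
  have hmem : g i n ∈ Submodule.span ℤ (SM : Set ℂ) := hSM ▸ hg i n
  have := Submodule.apply_mem_span_image_of_mem_span m hmem
  refine Submodule.span_mono ?_ this
  rintro _ ⟨x, hx, rfl⟩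
  simp only [Finset.coe_image, Set.mem_image, gen]
  exact ⟨(x, i), by simpa using hx, rfl⟩

/-- A (possibly non-linear) choice of coefficients can be made linear. -/
theorem exists_linear_factor {W U : Type*} [AddCommGroup W] [Module ℂ W] [AddCommGroup U]
    [Module ℂ U] (A : V →ₗ[ℂ] U) (Φ : W →ₗ[ℂ] U) (h : ∀ f, ∃ c, A f = Φ c) :
    ∃ L : V →ₗ[ℂ] W, A = Φ ∘ₗ L := by
  have hA : ∀ f, A f ∈ LinearMap.range Φ := fun f => by
    obtain ⟨c, hc⟩ := h f
    exact ⟨c, hc.symm⟩
  obtain ⟨L, hL⟩ := Module.projective_lifting_property Φ.rangeRestrict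
    (A.codRestrict (LinearMap.range Φ) hA) Φ.surjective_rangeRestrict
  refine ⟨L, ?_⟩
  apply LinearMap.ext
  intro f
  have := congrArg (fun F => ((F f : LinearMap.range Φ) : U)) hL
  simpa using this.symm

end Abstract

end Fermat.Agent.S22
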