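-- S22, light route: reduction of the statement to the interface lemmas of the S23 project
-- (separating form, its conjugates, the Lagrange identity, level-one spanning sets).
import Fermat.Agent.S22.Assembly
import Fermat.Agent.S22.Reduction
import Fermat.Agent.S23.Defs

set_option autoImplicit false

open UpperHalfPlane ModularForm SlashInvariantForm
open scoped MatrixGroups Manifold
open Fermat.Agent.S23 Fermat.Agent.S23.IntSeries

namespace Fermat.Agent.S22

/-- The Lagrange denominator is `N`-periodic, holomorphic and bounded. -/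
theorem isPer_lagrangeDen {N : ℕ} [NeZero N] {w : ℤ} (t : ModularForm (G0 N) w)
    (ht : IsPer 1 (t : ℍ → ℂ)) (hconj : ∀ q : Q0 N, IsPer (N : ℝ) (quotientFunc t q)) :
    IsPer (N : ℝ) (lagrangeDen t) := by
  have : lagrangeDen t = ∏ q ∈ Finset.univ.erase (q0 N), ((t : ℍ → ℂ) - quotientFunc t q) := by
    funext z
    simp [lagrangeDen, Finset.prod_apply]
  rw [this]
  exact IsPer.prod _ fun q _ => ht.of_one.sub (hconj q)

theorem qExpansion_lagrangeDen {N : ℕ} [NeZero N] {w : ℤ} (t : ModularForm (G0 N) w)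
    (ht : IsPer 1 (t : ℍ → ℂ)) (hconj : ∀ q : Q0 N, IsPer (N : ℝ) (quotientFunc t q)) :
    qExpansion (N : ℝ) (lagrangeDen t) = ∏ q ∈ Finset.univ.erase (q0 N),
      (qExpansion (N : ℝ) (t : ℍ → ℂ) - qExpansion (N : ℝ) (quotientFunc t q)) := by
  have hNR : (0 : ℝ) < (N : ℝ) := by exact_mod_cast NeZero.pos N
  have : lagrangeDen t = ∏ q ∈ Finset.univ.erase (q0 N), ((t : ℍ → ℂ) - quotientFunc t q) := by
    funext z
    simp [lagrangeDen, Finset.prod_apply]
  rw [this, UpperHalfPlane.qExpansion_prod]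
  · refine Finset.prod_congr rfl fun q _ => ?_
    exact qExpansion_sub (ht.of_one.analyticAt hNR) ((hconj q).analyticAt hNR)
  · intro q _
    exact (ht.of_one.sub (hconj q)).analyticAt hNR

/-- Light route main reduction. -/
theorem heckeAlgebra_finite_of_interfaces (N : ℕ) [NeZero N] (k : ℤ) (hk : 1 ≤ k) (S : Set ℕ)
    (R : Subring ℂ) (hR : ∃ M : Submodule ℤ ℂ, M.FG ∧ ∀ x ∈ R, x ∈ M)
    {w : ℤ} (t : ModularForm (G0 N) w)
    (ht1 : qExpansion 1 t ∈ coeffSubring R)
    (ht0 : PowerSeries.coeff 0 (qExpansion 1 t) = 1)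
    (hconj : ∀ q : Q0 N, IsPer (N : ℝ) (quotientFunc t q))
    (hconjR : ∀ q : Q0 N, qExpansion (N : ℝ) (quotientFunc t q) ∈ coeffSubring R)
    (hconj0 : ∀ q : Q0 N, q ≠ q0 N →
      PowerSeries.coeff 0 (qExpansion (N : ℝ) (quotientFunc t q)) = 0)
    (hlev : ∀ w' : ℤ, ∃ s : Finset (ModularForm 𝒮ℒ w'),
      (∀ e ∈ s, qExpansion 1 e ∈ coeffSubring R) ∧
        Submodule.span ℂ (s : Set (ModularForm 𝒮ℒ w')) = ⊤)
    (wt : ℕ → ℤ)
    (hlag : ∀ f : CuspForm (G0 N) k, ∃ c : (m : ℕ) → ModularForm 𝒮ℒ (wt m),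
      ∀ z, f z * lagrangeDen t z = ∑ m ∈ Finset.range (mu N), c m z * t z ^ m) :
    Module.Finite ℤ (CuspForm.heckeAlgebra N k S) := by
  classical
  obtain ⟨M, hM, hRM⟩ := hR
  have hN : 0 < N := NeZero.pos N
  have ht : IsPer 1 (t : ℍ → ℂ) := by
    have h1 : (1 : ℝ) ∈ (G0 N).strictPeriods := hΓ0 N
    have : Fact (IsCusp OnePoint.infty (G0 N)) :=
      ⟨Subgroup.isCusp_of_mem_strictPeriods one_pos h1⟩
    exact ⟨SlashInvariantFormClass.periodic_comp_ofComplex t h1,
      ModularFormClass.holo t, ModularFormClass.bdd_at_infty t⟩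
  have hD := isPer_lagrangeDen t ht hconj
  have hDq : qExpansion (N : ℝ) (lagrangeDen t) ∈ coeffSubring R := by
    rw [qExpansion_lagrangeDen t ht hconj]
    refine Subring.prod_mem _ fun q _ => ?_
    exact (coeffSubring R).sub_mem (qExpansion_nat_mem_coeffSubring ht ht1 hN) (hconjR q)
  have hD0 : PowerSeries.constantCoeff (qExpansion (N : ℝ) (lagrangeDen t)) = 1 := by
    rw [qExpansion_lagrangeDen t ht hconj, map_prod]
    refine Finset.prod_eq_one fun q hq => ?_
    have hq' : q ≠ q0 N := (Finset.mem_erase.1 hq).1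
    rw [map_sub, ← PowerSeries.coeff_zero_eq_constantCoeff_apply,
      ← PowerSeries.coeff_zero_eq_constantCoeff_apply, hconj0 q hq',
      show (0 : ℕ) = N * 0 by simp, qExpansion_nat_coeff_mul ht hN, ht0, sub_zero]
  obtain ⟨ι, _, g, hg, hcont⟩ := qExp_contained_of_lagrange (N := N) (k := k) R (t : ℍ → ℂ)
    (lagrangeDen t) ht hD ht1 hDq hD0 (μ := mu N) (fun m => wt m) (fun m => hlev _) (by
      intro f
      obtain ⟨c, hc⟩ := hlag f
      refine ⟨fun m => c m, fun z => ?_⟩
      rw [hc z, Finset.sum_range])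
  exact heckeAlgebra_finite_of_qExp_contained N k hk S M hM g (fun i n => hRM _ (hg i n)) hcont

end Fermat.Agent.S22
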