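-- Conjugates of u = Delta^N / Delta(N z): the q_N-expansion side (for S22 and S23).
-- For an abstract map beta of the upper half plane with coordinate (a z + b) / d, a d = N, and a
-- function F with F * (Delta o beta) = d^12 Delta^N, we show that F is N-periodic, holomorphic,
-- bounded at infinity, and that its q_N-expansion has coefficients in any subring containing
-- exp (2 pi i b / d) and its inverse; the constant coefficient vanishes when d > 1.
import Fermat.Agent.S22.PerFun
import Fermat.Agent.S23.UFunction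
import Fermat.Agent.S23.IntSeries

set_option autoImplicit false

open UpperHalfPlane ModularForm Complex Filter Asymptotics Function
open scoped ModularForm Manifold Real Topology MatrixGroups
open Fermat.Agent.S23.IntSeries Fermat.Agent.S23.UFunction

namespace Fermat.Agent.S22.UConjSeries

local notation "Δ" => ModularForm.discriminant
local notation "𝕢" => Periodic.qParam

section Beta

variable {N a d : ℕ} (had : a * d = N) (hN : N ≠ 0) (b : ℤ) (β : ℍ → ℍ)
  (hβ : ∀ z : ℍ, ((β z : ℍ) : ℂ) = ((a : ℂ) * z + b) / d)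

include had hN in
theorem a_pos : 0 < a := by
  rcases Nat.eq_zero_or_pos a with h | h
  · subst h
    simp at had
    exact absurd had.symm hN
  · exact h

include had hN in
theorem d_pos : 0 < d := by
  rcases Nat.eq_zero_or_pos d with h | h
  · subst h
    simp at had
    exact absurd had.symm hN
  · exact h

include had hN hβ in
theorem im_beta (z : ℍ) : (β z).im = (a : ℝ) / d * z.im := by
  have hd : (0 : ℝ) < d := Nat.cast_pos.mpr (d_pos had hN)
  have h := congrArg Complex.im (hβ z)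
  rw [UpperHalfPlane.coe_im] at h
  rw [h]
  have : (((a : ℂ) * z + b) / d) = (((a : ℝ) / d : ℝ) : ℂ) * z + (((b : ℝ) / d : ℝ) : ℂ) := by
    have hd' : (d : ℂ) ≠ 0 := Nat.cast_ne_zero.mpr (d_pos had hN).ne'
    push_cast
    field_simp
  rw [this]
  simp

include had hN hβ in
theorem tendsto_beta : Tendsto β atImInfty atImInfty := by
  rw [atImInfty, tendsto_comap_iff]
  have : (UpperHalfPlane.im ∘ β) = fun z : ℍ => ((a : ℝ) / d) * z.im := by
    ext z
    simp [im_beta had hN b β hβ]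
  rw [this]
  have hpos : (0 : ℝ) < (a : ℝ) / d :=
    div_pos (Nat.cast_pos.mpr (a_pos had hN)) (Nat.cast_pos.mpr (d_pos had hN))
  exact (tendsto_comap).const_mul_atTop hpos

include had hN hβ in
theorem beta_ofComplex {z : ℂ} (hz : 0 < z.im) :
    β (ofComplex z) = ofComplex (((a : ℂ) * z + b) / d) := by
  have hz' : 0 < (((a : ℂ) * z + b) / d).im := by
    have h := im_beta had hN b β hβ (ofComplex z)
    have h2 := congrArg Complex.im (hβ (ofComplex z))
    rw [UpperHalfPlane.coe_im, ofComplex_apply_of_im_pos hz] at h2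
    rw [← h2]
    exact (β _).im_pos
  apply UpperHalfPlane.ext
  rw [hβ, ofComplex_apply_of_im_pos hz, ofComplex_apply_of_im_pos hz']

include had hN hβ in
theorem mdiff_comp_beta {f : ℍ → ℂ} (hf : MDiff f) : MDiff (fun z : ℍ => f (β z)) := by
  rw [UpperHalfPlane.mdifferentiable_iff]
  have h1 : DifferentiableOn ℂ (f ∘ ofComplex) {z | 0 < z.im} :=
    UpperHalfPlane.mdifferentiable_iff.mp hf
  have h2 : DifferentiableOn ℂ (fun z : ℂ => ((a : ℂ) * z + b) / d) {z | 0 < z.im} :=
    (((differentiable_id.const_mul _).add_const _).div_const _).differentiableOn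
  have hmaps : Set.MapsTo (fun z : ℂ => ((a : ℂ) * z + b) / d) {z | 0 < z.im} {z | 0 < z.im} := by
    intro z hz
    have hz0 : 0 < z.im := hz
    have h2 := congrArg Complex.im (hβ (ofComplex z))
    rw [UpperHalfPlane.coe_im, ofComplex_apply_of_im_pos hz0] at h2
    show 0 < (((a : ℂ) * z + b) / d).im
    rw [← h2]
    exact (β _).im_pos
  refine (h1.comp h2 hmaps).congr ?_
  intro z hz
  simp only [Function.comp_apply]
  rw [beta_ofComplex had hN b β hβ hz]

include had hN hβ in
theorem periodic_comp_beta {f : ℍ → ℂ} (hf : Periodic (f ∘ ofComplex) 1) :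
    Periodic ((fun z : ℍ => f (β z)) ∘ ofComplex) (N : ℝ) := by
  intro z
  simp only [Function.comp_apply]
  by_cases hz : 0 < z.im
  · have hz1 : 0 < (z + ((N : ℝ) : ℂ)).im := by simpa using hz
    rw [beta_ofComplex had hN b β hβ hz, beta_ofComplex had hN b β hβ hz1]
    have := (hf.nat_mul (a * a)) (((a : ℂ) * z + b) / d)
    simp only [Function.comp_apply] at this
    rw [← this]
    congr 2
    have hd' : (d : ℂ) ≠ 0 := Nat.cast_ne_zero.mpr (d_pos had hN).ne'
    rw [← had]
    push_cast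
    field_simp
    ring
  · have hz1 : ¬ 0 < (z + ((N : ℝ) : ℂ)).im := by simpa using hz
    rw [ofComplex_apply_of_im_nonpos (not_lt.mp hz), ofComplex_apply_of_im_nonpos (not_lt.mp hz1)]

include had hN hβ in
theorem isBoundedAtImInfty_comp_beta {f : ℍ → ℂ} (hf : IsBoundedAtImInfty f) :
    IsBoundedAtImInfty (fun z : ℍ => f (β z)) := by
  rw [IsBoundedAtImInfty, BoundedAtFilter] at hf ⊢
  exact hf.comp_tendsto (tendsto_beta had hN b β hβ)

include had hN hβ in
theorem isPer_comp_beta {f : ℍ → ℂ} (hf : IsPer 1 f) : IsPer (N : ℝ) (fun z : ℍ => f (β z)) :=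
  ⟨periodic_comp_beta had hN b β hβ hf.1, mdiff_comp_beta had hN b β hβ hf.2.1,
    isBoundedAtImInfty_comp_beta had hN b β hβ hf.2.2⟩

/-- The root of unity `exp (2 π i b / d)`. -/
noncomputable def zeta (b : ℤ) (d : ℕ) : ℂ := Complex.exp (2 * π * Complex.I * b / d)

include had hN hβ in
theorem qParam_beta (z : ℍ) : 𝕢 1 (β z) = zeta b d * 𝕢 (N : ℝ) z ^ (a * a) := by
  have hd' : (d : ℂ) ≠ 0 := Nat.cast_ne_zero.mpr (d_pos had hN).ne'
  have ha' : (a : ℂ) ≠ 0 := Nat.cast_ne_zero.mpr (a_pos had hN).ne'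
  rw [Periodic.qParam, Periodic.qParam, zeta, hβ, ← Complex.exp_nat_mul, ← Complex.exp_add]
  congr 1
  rw [← had]
  push_cast
  field_simp
  ring

include had hN hβ in
/-- The `q_N`-expansion of `f ∘ β` for a `1`-periodic `f`. -/
theorem qExpansion_comp_beta {f : ℍ → ℂ} (hf : IsPer 1 f) :
    qExpansion (N : ℝ) (fun z : ℍ => f (β z)) =
      PowerSeries.expand (a * a) (Nat.mul_ne_zero (a_pos had hN).ne' (a_pos had hN).ne')
        (PowerSeries.rescale (zeta b d) (qExpansion 1 f)) := by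
  have hNR : (0 : ℝ) < (N : ℝ) := Nat.cast_pos.mpr (Nat.pos_of_ne_zero hN)
  have haa : a * a ≠ 0 := Nat.mul_ne_zero (a_pos had hN).ne' (a_pos had hN).ne'
  have han : AnalyticAt ℂ (cuspFunction (N : ℝ) (fun z : ℍ => f (β z))) 0 :=
    (isPer_comp_beta had hN b β hβ hf).analyticAt hNR
  ext m
  symm
  refine qExpansion_coeff_unique' (c := fun m =>
    (PowerSeries.expand (a * a) haa (PowerSeries.rescale (zeta b d) (qExpansion 1 f))).coeff m)
    hNR han (fun τ => ?_) m
  have h1 := hasSum_qExpansion one_pos hf.1 hf.2.1 hf.2.2 (β τ)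
  rw [qParam_beta had hN b β hβ] at h1
  have hinj : Function.Injective (fun m : ℕ => (a * a) * m) :=
    fun x y h => Nat.eq_of_mul_eq_mul_left (Nat.pos_of_ne_zero haa) h
  rw [← hinj.hasSum_iff]
  · convert h1 using 1
    ext m
    simp only [Function.comp_apply, PowerSeries.coeff_expand_mul, PowerSeries.coeff_rescale,
      smul_eq_mul, mul_pow, pow_mul]
    ring
  · intro n hn
    have : ¬ (a * a) ∣ n := fun ⟨k, hk⟩ => hn ⟨k, hk.symm⟩
    rw [PowerSeries.coeff_expand_of_not_dvd _ _ _ this, zero_smul]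

end Beta

section SeriesLemmas

open PowerSeries

theorem expand_mem_coeffSubring {R : Subring ℂ} {f : PowerSeries ℂ} (hf : f ∈ coeffSubring R)
    (p : ℕ) (hp : p ≠ 0) : PowerSeries.expand p hp f ∈ coeffSubring R := by
  intro n
  by_cases h : p ∣ n
  · obtain ⟨m, rfl⟩ := h
    rw [PowerSeries.coeff_expand_mul]
    exact hf m
  · rw [PowerSeries.coeff_expand_of_not_dvd _ _ _ h]
    exact R.zero_mem

theorem rescale_mem_coeffSubring {R : Subring ℂ} {f : PowerSeries ℂ} (hf : f ∈ coeffSubring R)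
    {c : ℂ} (hc : c ∈ R) : PowerSeries.rescale c f ∈ coeffSubring R := by
  intro n
  rw [PowerSeries.coeff_rescale]
  exact R.mul_mem (R.pow_mem hc n) (hf n)

theorem X_pow_mem_coeffSubring (R : Subring ℂ) (n : ℕ) :
    (X : PowerSeries ℂ) ^ n ∈ coeffSubring R :=
  (coeffSubring R).pow_mem (X_mem_coeffSubring R) n

/-- The cofactor `Δ_q / q` as a complex power series. -/
noncomputable def Dc : PowerSeries ℂ := DeltaUnitZ.map (Int.castRingHom ℂ)

theorem qExpansion_discriminant_eq_X_mul : qExpansion 1 Δ = X * Dc := by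
  rw [qExpansion_discriminant, DeltaZ_eq_X_mul, map_mul, map_X]
  rfl

theorem Dc_mem (R : Subring ℂ) : Dc ∈ coeffSubring R := map_int_mem_coeffSubring _ R

theorem constantCoeff_Dc : constantCoeff Dc = 1 := by
  rw [Dc, ← coeff_zero_eq_constantCoeff_apply, coeff_map, coeff_zero_eq_constantCoeff_apply,
    constantCoeff_DeltaUnitZ]
  simp

/-- Pure power-series algebra behind the conjugate expansions. -/
theorem series_algebra {R : Subring ℂ} {N a : ℕ} (hN : N ≠ 0) (ha : a ≠ 0) (haN : a ≤ N)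
    {ζ ζ' : ℂ} (hζ : ζ ∈ R) (hζ' : ζ' ∈ R) (hζζ' : ζ * ζ' = 1) {c : ℂ} (hc : c ∈ R)
    (U : PowerSeries ℂ)
    (hU : U * PowerSeries.expand (a * a) (Nat.mul_ne_zero ha ha)
        (PowerSeries.rescale ζ (X * Dc)) =
      C c * (PowerSeries.expand N hN (X * Dc)) ^ N) :
    U ∈ coeffSubring R ∧ (a < N → coeff 0 U = 0) := by
  have haa : a * a ≠ 0 := Nat.mul_ne_zero ha ha
  set Dβ : PowerSeries ℂ := PowerSeries.expand (a * a) haa (PowerSeries.rescale ζ Dc) with hDβ
  set DN : PowerSeries ℂ := PowerSeries.expand N hN Dc with hDN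
  have hDβR : Dβ ∈ coeffSubring R :=
    expand_mem_coeffSubring (rescale_mem_coeffSubring (Dc_mem R) hζ) _ _
  have hDNR : DN ∈ coeffSubring R := expand_mem_coeffSubring (Dc_mem R) _ _
  have hDβ0 : constantCoeff Dβ = 1 := by
    rw [hDβ, constantCoeff_expand, ← coeff_zero_eq_constantCoeff_apply, coeff_rescale,
      coeff_zero_eq_constantCoeff_apply, constantCoeff_Dc]
    simp
  obtain ⟨Eβ, hEβR, hDE, -⟩ := exists_inverse_mem_coeffSubring hDβR hDβ0
  have hle : a * a ≤ N * N := Nat.mul_le_mul haN haN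
  have h1 : PowerSeries.expand (a * a) haa (PowerSeries.rescale ζ (X * Dc)) =
      X ^ (a * a) * (C ζ * Dβ) := by
    rw [map_mul, rescale_X, map_mul, map_mul, expand_C, expand_X]
    ring
  have h2 : (PowerSeries.expand N hN (X * Dc)) ^ N =
      X ^ (a * a) * (X ^ (N * N - a * a) * DN ^ N) := by
    rw [map_mul, expand_X, mul_pow, ← pow_mul, ← mul_assoc, ← pow_add,
      Nat.add_sub_cancel' hle]
  rw [h1, h2] at hU
  have h3 : X ^ (a * a) * (U * (C ζ * Dβ)) =
      X ^ (a * a) * (C c * (X ^ (N * N - a * a) * DN ^ N)) := by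
    linear_combination hU
  have h4 := X_pow_mul_cancel h3
  have hCζ : C ζ * C ζ' = (1 : PowerSeries ℂ) := by
    rw [← map_mul, hζζ', map_one]
  have hUeq : U = C c * (X ^ (N * N - a * a) * DN ^ N) * (C ζ' * Eβ) := by
    rw [← h4]
    calc U = U * ((C ζ * C ζ') * (Dβ * Eβ)) := by rw [hCζ, hDE, mul_one, mul_one]
      _ = U * (C ζ * Dβ) * (C ζ' * Eβ) := by ring
  refine ⟨?_, ?_⟩
  · rw [hUeq]
    refine (coeffSubring R).mul_mem ((coeffSubring R).mul_mem (C_mem_coeffSubring hc)
      ((coeffSubring R).mul_mem (X_pow_mem_coeffSubring R _)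
        ((coeffSubring R).pow_mem hDNR _))) ?_
    exact (coeffSubring R).mul_mem (C_mem_coeffSubring hζ') hEβR
  · intro haN'
    have hlt : a * a < N * N := Nat.mul_lt_mul'' haN' haN'
    obtain ⟨e, he⟩ : ∃ e, N * N - a * a = e + 1 := ⟨N * N - a * a - 1, by omega⟩
    rw [hUeq, he, pow_succ']
    have : C c * (X * X ^ e * DN ^ N) * (C ζ' * Eβ) =
        X * (C c * (X ^ e * DN ^ N) * (C ζ' * Eβ)) := by ring
    rw [this, coeff_zero_X_mul]

end SeriesLemmas

section Main

variable {N a d : ℕ} (had : a * d = N) (hN : N ≠ 0) (b : ℤ) (β : ℍ → ℍ)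
  (hβ : ∀ z : ℍ, ((β z : ℍ) : ℂ) = ((a : ℂ) * z + b) / d)
  (F : ℍ → ℂ) (hF : ∀ z : ℍ, F z * Δ (β z) = (d : ℂ) ^ 12 * Δ z ^ N)

theorem isPer_discriminant : IsPer 1 (Δ : ℍ → ℂ) :=
  ⟨periodic_discriminant, mdiff_discriminant, isBoundedAtImInfty_discriminant⟩

include hF in
theorem F_eq : F = fun z : ℍ => (d : ℂ) ^ 12 * Δ z ^ N / Δ (β z) := by
  funext z
  rw [eq_div_iff (discriminant_ne_zero _)]
  exact hF z

include had hN hβ in
theorem discriminant_pow_isBigO_comp_beta :
    (fun z : ℍ => Δ z ^ N) =O[atImInfty] fun z : ℍ => Δ (β z) := by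
  have h1 : (Δ : ℍ → ℂ) =O[atImInfty] fun τ => Real.exp (-2 * π * τ.im / 1) :=
    CuspFormClass.exp_decay_atImInfty CuspForm.discriminant one_pos one_mem_strictPeriods_SL
  have h2 : (fun z : ℍ => Δ z ^ N) =O[atImInfty] fun τ => Real.exp (-2 * π * τ.im / 1) ^ N :=
    h1.pow N
  have h3 : (fun τ : ℍ => Real.exp (-2 * π * (β τ).im)) =O[atImInfty]
      fun τ => Δ (β τ) := exp_isBigO_discriminant.comp_tendsto (tendsto_beta had hN b β hβ)
  refine h2.trans (IsBigO.trans (IsBigO.of_bound 1 (Eventually.of_forall fun τ => ?_)) h3)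
  rw [one_mul, ← Real.exp_nat_mul, im_beta had hN b β hβ, Real.norm_eq_abs, Real.norm_eq_abs,
    abs_of_pos (Real.exp_pos _), abs_of_pos (Real.exp_pos _), Real.exp_le_exp]
  have hd : (0 : ℝ) < d := Nat.cast_pos.mpr (d_pos had hN)
  have hd1 : (1 : ℝ) ≤ d := by exact_mod_cast d_pos had hN
  have hy : 0 < τ.im := τ.im_pos
  have haN : (a : ℝ) / d ≤ N := by
    rw [div_le_iff₀ hd, ← had]
    push_cast
    have ha0 : (0 : ℝ) ≤ a := Nat.cast_nonneg a
    have h4 : (a : ℝ) * 1 * 1 ≤ a * d * d := by gcongr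
    linarith
  have hπ : 0 < π := Real.pi_pos
  have : (a : ℝ) / d * τ.im ≤ N * τ.im := mul_le_mul_of_nonneg_right haN hy.le
  simp only [div_one]
  nlinarith

include had hN hβ hF in
theorem isPer_F : IsPer (N : ℝ) F := by
  have hG := isPer_comp_beta had hN b β hβ isPer_discriminant
  refine ⟨?_, ?_, ?_⟩
  · intro z
    have hΔ : ∀ w : ℂ, (Δ ∘ ofComplex) (w + (N : ℝ)) = (Δ ∘ ofComplex) w := by
      intro w
      have := (periodic_discriminant.nat_mul N) w
      simpa using this
    have h1 := hG.1 z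
    have h2 := hΔ z
    simp only [Function.comp_apply] at h1 h2 ⊢
    rw [F_eq β F hF]
    simp only
    rw [h1, h2]
  · rw [F_eq β F hF]
    exact ((mdifferentiable_const.mul (mdiff_discriminant.pow N))).div hG.2.1
      (fun z => discriminant_ne_zero (β z))
  · rw [F_eq β F hF]
    have h := (div_isBoundedUnder_of_isBigO
      (discriminant_pow_isBigO_comp_beta had hN b β hβ)).isBigO_one ℝ
    have h2 : IsBoundedAtImInfty (fun z : ℍ => Δ z ^ N / Δ (β z)) := h
    have h3 : IsBoundedAtImInfty (fun _ : ℍ => (d : ℂ) ^ 12) := Filter.const_boundedAtFilter _ _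
    have h4 : (fun z : ℍ => (d : ℂ) ^ 12 * Δ z ^ N / Δ (β z)) =
        (fun _ : ℍ => (d : ℂ) ^ 12) * (fun z : ℍ => Δ z ^ N / Δ (β z)) := by
      funext z
      simp [mul_div_assoc]
    rw [h4]
    exact h3.mul h2

include had hN hβ hF in
/-- Main theorem on the conjugate `F`: it is `N`-periodic, holomorphic and bounded; its
`q_N`-expansion has coefficients in any subring containing `ζ` and `ζ⁻¹`; the constant
coefficient vanishes if `d > 1`. -/
theorem conj_series (R : Subring ℂ) (hζ : zeta b d ∈ R) (hζ' : zeta (-b) d ∈ R) :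
    IsPer (N : ℝ) F ∧ qExpansion (N : ℝ) F ∈ coeffSubring R ∧
      (1 < d → PowerSeries.coeff 0 (qExpansion (N : ℝ) F) = 0) := by
  have hNR : (0 : ℝ) < (N : ℝ) := Nat.cast_pos.mpr (Nat.pos_of_ne_zero hN)
  have hFper := isPer_F had hN b β hβ F hF
  have hG := isPer_comp_beta had hN b β hβ isPer_discriminant
  have ha := (a_pos had hN).ne'
  have hfun : F * (fun z : ℍ => Δ (β z)) = (fun _ : ℍ => (d : ℂ) ^ 12) * (Δ : ℍ → ℂ) ^ N := by
    funext z
    simpa using hF z
  have hq := congrArg (qExpansion (N : ℝ)) hfun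
  have hconst : qExpansion (N : ℝ) (fun _ : ℍ => (d : ℂ) ^ 12) = PowerSeries.C ((d : ℂ) ^ 12) := by
    have : (fun _ : ℍ => (d : ℂ) ^ 12) = ((d : ℂ) ^ 12) • (1 : ℍ → ℂ) := by
      funext z
      simp
    rw [this, qExpansion_smul_of_isPer hNR _ IsPer.one, qExpansion_one,
      PowerSeries.smul_eq_C_mul, mul_one]
  have hΔN : qExpansion (N : ℝ) (Δ : ℍ → ℂ) =
      PowerSeries.expand N hN (PowerSeries.X * Dc) := by
    rw [← qExpansion_discriminant_eq_X_mul]
    ext n
    rw [qExpansion_nat_coeff isPer_discriminant (Nat.pos_of_ne_zero hN), PowerSeries.coeff_expand]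
  rw [qExpansion_mul_of_isPer hNR hFper hG,
    qExpansion_mul_of_isPer hNR (IsPer.const _) (isPer_discriminant.of_one.pow N),
    qExpansion_pow_of_isPer hNR isPer_discriminant.of_one, hconst,
    qExpansion_comp_beta had hN b β hβ isPer_discriminant, hΔN,
    qExpansion_discriminant_eq_X_mul] at hq
  have hζζ' : zeta b d * zeta (-b) d = 1 := by
    rw [zeta, zeta, ← Complex.exp_add]
    have : (2 * π * Complex.I * (b : ℂ) / d + 2 * π * Complex.I * ((-b : ℤ) : ℂ) / d) = 0 := by
      push_cast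
      ring
    rw [this, Complex.exp_zero]
  have haN : a ≤ N := by
    rw [← had]
    exact Nat.le_mul_of_pos_right a (d_pos had hN)
  have hd12 : (d : ℂ) ^ 12 ∈ R := R.pow_mem (natCast_mem R d) 12
  obtain ⟨h1, h2⟩ := series_algebra (R := R) hN ha haN hζ hζ' hζζ' hd12 _ hq
  refine ⟨hFper, h1, fun hd => h2 ?_⟩
  rw [← had]
  exact lt_mul_of_one_lt_right (a_pos had hN) hd

end Main

end Fermat.Agent.S22.UConjSeries
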